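/-
GATE-P / S56 [P-FLAT] (R2) (helper75): the ramification break of a degree-`p` KUMMER extension,
in ABSTRACT valuation form (Mathlib only; no model of local fields).

Setting: a field `L` with a valuation `v : Valuation L Γ₀` (multiplicative notation: SMALL value
= HIGH order), a prime `p`, a primitive `p`-th root of unity `ζ ∈ L`, and `y ∈ L` with
`u := y ^ p` "close to `1` but not too close":
   `v (y ^ p - 1) < 1`   and   `v (ζ - 1) ^ p < v (y ^ p - 1)`
(additively: `0 < ord(u - 1) < p · ord(ζ - 1) = p e/(p-1)`).  Put `z := y - 1`.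

* `val_natCast_le_one`, `val_natCast_eq_one_of_coprime` : integers.
* `val_zeta_pow_sub_one` : `v (ζ ^ k - 1) = v (ζ - 1)` for `p ∤ k`.
* `val_p_eq` : `v p = v (ζ - 1) ^ (p - 1)`.
* `val_sub_one_pow` : **`v (y - 1) ^ p = v (y ^ p - 1)`** (the `z ^ p` term dominates), together with
  `v (ζ - 1) < v (y - 1) < 1`.
* `val_one_add_zpow_sub_one` : `v ((1 + t) ^ A - 1) = v t` for `v t < 1`, `p ∤ A`.
* `val_sigma_sub` : for a ring hom `σ` with `σ y = ζ * y`: `v (σ y - y) = v (ζ - 1)`.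
* **`kummer_break`** : for `Π := (y - 1) ^ A * π ^ B` (`A B : ℤ`, `p ∤ A`, `σ π = π`):
  `v (σ Π - Π) = v Π * v (ζ - 1) / v (y - 1)`.
* `kummer_break_pow` : the same for every `σ` with `σ y = ζ ^ k * y`, `p ∤ k`.
* `kummer_break_normalised` : if `v Π = g`, `v (ζ - 1) = g ^ J`, `v (y - 1) = g ^ j` then
  `v (σ Π - Π) = g ^ (1 + J - j)`  (lower numbering: `i(σ) = 1 + (J - j)`, break `J - j`).
* `exists_uniformiser_exponents` : `p ∤ j` ⟹ `∃ A B : ℤ, ¬ p ∣ A ∧ A * j + B * p = 1`.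
-/
import Mathlib

set_option autoImplicit false

namespace Fermat.Agent.GP.Ram.KummerBreak

open Finset

variable {L : Type*} [Field L] {Γ₀ : Type*} [LinearOrderedCommGroupWithZero Γ₀]
  (v : Valuation L Γ₀)

/-! ### Integers -/

theorem val_natCast_le_one (n : ℕ) : v (n : L) ≤ 1 := by
  induction n with
  | zero => simp
  | succ n ih =>
    rw [Nat.cast_succ]
    exact (v.map_add _ _).trans (max_le ih (le_of_eq v.map_one))

theorem val_intCast_le_one (n : ℤ) : v (n : L) ≤ 1 := by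
  cases n with
  | ofNat n => simpa using val_natCast_le_one v n
  | negSucc n =>
    rw [Int.cast_negSucc, Valuation.map_neg]
    exact val_natCast_le_one v (n + 1)

/-- Integers prime to `p` are `v`-units as soon as `v p < 1`. -/
theorem val_intCast_eq_one_of_not_dvd {p : ℕ} [hp : Fact p.Prime] (hvp : v (p : L) < 1) {A : ℤ}
    (hA : ¬ (p : ℤ) ∣ A) : v (A : L) = 1 := by
  have hcop : IsCoprime A (p : ℤ) := by
    have hpZ : Prime (p : ℤ) := Nat.prime_iff_prime_int.mp hp.out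
    exact (hpZ.coprime_iff_not_dvd.mpr hA).symm
  obtain ⟨a, b, hab⟩ := hcop
  have hab' : (a : L) * (A : L) + (b : L) * (p : L) = 1 := by exact_mod_cast congrArg (Int.cast : ℤ → L) hab
  refine le_antisymm (val_intCast_le_one v A) ?_
  by_contra hlt
  rw [not_le] at hlt
  have h1 : v ((a : L) * (A : L)) < 1 := by
    rw [map_mul]
    calc v (a : L) * v (A : L) ≤ 1 * v (A : L) := mul_le_mul' (val_intCast_le_one v a) le_rfl
      _ = v (A : L) := one_mul _
      _ < 1 := hlt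
  have h2 : v ((b : L) * (p : L)) < 1 := by
    rw [map_mul]
    calc v (b : L) * v (p : L) ≤ 1 * v (p : L) := mul_le_mul' (val_intCast_le_one v b) le_rfl
      _ = v (p : L) := one_mul _
      _ < 1 := hvp
  have := v.map_add_lt h1 h2
  rw [hab', v.map_one] at this
  exact lt_irrefl _ this

theorem val_natCast_eq_one_of_coprime {p : ℕ} [Fact p.Prime] (hvp : v (p : L) < 1) {n : ℕ}
    (hn : ¬ p ∣ n) : v (n : L) = 1 := by
  have := val_intCast_eq_one_of_not_dvd v hvp (A := (n : ℤ)) (by exact_mod_cast hn)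
  simpa using this

/-! ### Powers in the value group -/

theorem eq_one_of_pow_eq_one {g : Γ₀} {n : ℕ} (hn : n ≠ 0) (h : g ^ n = 1) : g = 1 := by
  rcases lt_trichotomy g 1 with hlt | heq | hgt
  · exact absurd h (ne_of_lt (pow_lt_one₀ zero_le hlt hn))
  · exact heq
  · exact absurd h (ne_of_gt (one_lt_pow₀ hgt hn))

/-! ### Roots of unity -/

section Zeta

variable {p : ℕ} [hp : Fact p.Prime] {ζ : L} (hζ : IsPrimitiveRoot ζ p)

include hζ

theorem val_zeta : v ζ = 1 :=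
  eq_one_of_pow_eq_one hp.out.ne_zero (by rw [← v.map_pow, hζ.pow_eq_one, v.map_one])

theorem val_zeta_pow (k : ℕ) : v (ζ ^ k) = 1 := by rw [v.map_pow, val_zeta v hζ, one_pow]

omit hp hζ in
theorem val_geom_sum_le_one {x : L} (hx : v x ≤ 1) (n : ℕ) : v (∑ i ∈ range n, x ^ i) ≤ 1 := by
  refine v.map_sum_le fun i _ => ?_
  rw [v.map_pow]
  exact pow_le_one₀ zero_le hx

omit hζ in
theorem val_pow_sub_one_le {x : L} (hx : v x ≤ 1) (n : ℕ) : v (x ^ n - 1) ≤ v (x - 1) := by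
  rw [← geom_sum_mul, map_mul]
  calc v (∑ i ∈ range n, x ^ i) * v (x - 1) ≤ 1 * v (x - 1) :=
        mul_le_mul' (by
          refine v.map_sum_le fun i _ => ?_
          rw [v.map_pow]
          exact pow_le_one₀ zero_le hx) le_rfl
    _ = v (x - 1) := one_mul _

/-- `v (ζ ^ k - 1) = v (ζ - 1)` for `p ∤ k`. -/
theorem val_zeta_pow_sub_one {k : ℕ} (hk : ¬ p ∣ k) : v (ζ ^ k - 1) = v (ζ - 1) := by
  refine le_antisymm (val_pow_sub_one_le v (le_of_eq (val_zeta v hζ)) k) ?_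
  -- `ζ = (ζ ^ k) ^ m` with `k * m ≡ 1 mod p`
  have hcop : Nat.Coprime k p := ((Nat.Prime.coprime_iff_not_dvd hp.out).mpr hk).symm
  obtain ⟨m, -, hm⟩ := Nat.exists_mul_mod_eq_one_of_coprime hcop hp.out.one_lt
  have hpow : (ζ ^ k) ^ m = ζ := by
    rw [← pow_mul, ← Nat.mod_add_div (k * m) p, hm, pow_add, pow_mul, hζ.pow_eq_one, one_pow,
      mul_one, pow_one]
  calc v (ζ - 1) = v ((ζ ^ k) ^ m - 1) := by rw [hpow]
    _ ≤ v (ζ ^ k - 1) := val_pow_sub_one_le v (le_of_eq (val_zeta_pow v hζ k)) m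

/-- `v p = v (ζ - 1) ^ (p - 1)`. -/
theorem val_p_eq : v (p : L) = v (ζ - 1) ^ (p - 1) := by
  have hp1 : p - 1 + 1 = p := Nat.sub_add_cancel hp.out.one_le
  have hζ' : IsPrimitiveRoot ζ (p - 1 + 1) := by rw [hp1]; exact hζ
  have hprod := hζ'.prod_one_sub_pow_eq_order
  have hcast : ((p - 1 : ℕ) : L) + 1 = (p : L) := by
    have : ((p - 1 + 1 : ℕ) : L) = (p : L) := by rw [hp1]
    rw [← this]; push_cast; ring
  rw [hcast] at hprod
  rw [← hprod, map_prod]
  rw [Finset.prod_congr rfl (g := fun _ => v (ζ - 1))]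
  · rw [Finset.prod_const, Finset.card_range]
  · intro k hk
    rw [Finset.mem_range] at hk
    have hnd : ¬ p ∣ k + 1 := by
      intro hd
      have := Nat.le_of_dvd (Nat.succ_pos k) hd
      omega
    rw [← Valuation.map_neg, neg_sub, val_zeta_pow_sub_one v hζ hnd]

end Zeta

/-! ### `(1 + t) ^ A - 1` -/

section OneAdd

variable {p : ℕ} [hp : Fact p.Prime]

theorem val_one_add {t : L} (ht : v t < 1) : v (1 + t) = 1 := v.map_one_add_of_lt ht

theorem val_one_add_pow_sub_one (hvp : v (p : L) < 1) {t : L} (ht : v t < 1) {n : ℕ}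
    (hn : ¬ p ∣ n) : v ((1 + t) ^ n - 1) = v t := by
  have h1 : v (1 + t) = 1 := val_one_add v ht
  have hgeom : (1 + t) ^ n - 1 = (∑ i ∈ range n, (1 + t) ^ i) * t := by
    rw [← geom_sum_mul]; ring
  rw [hgeom, map_mul]
  have hsum : v (∑ i ∈ range n, (1 + t) ^ i) = 1 := by
    have hsplit : ∑ i ∈ range n, (1 + t) ^ i = (n : L) + ∑ i ∈ range n, ((1 + t) ^ i - 1) := by
      rw [Finset.sum_sub_distrib, Finset.sum_const, Finset.card_range, nsmul_eq_mul, mul_one]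
      ring
    rw [hsplit]
    have hsmall : v (∑ i ∈ range n, ((1 + t) ^ i - 1)) < 1 := by
      refine v.map_sum_lt one_ne_zero fun i _ => ?_
      refine lt_of_le_of_lt (val_pow_sub_one_le v (le_of_eq h1) i) ?_
      rw [add_sub_cancel_left]; exact ht
    have hn1 : v (n : L) = 1 := val_natCast_eq_one_of_coprime v hvp hn
    rw [v.map_add_eq_of_lt_left (by rw [hn1]; exact hsmall), hn1]
  rw [hsum, one_mul]

/-- `v ((1 + t) ^ A - 1) = v t` for an integer exponent `A` prime to `p`. -/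
theorem val_one_add_zpow_sub_one (hvp : v (p : L) < 1) {t : L} (ht : v t < 1) {A : ℤ}
    (hA : ¬ (p : ℤ) ∣ A) : v ((1 + t) ^ A - 1) = v t := by
  have h1 : v (1 + t) = 1 := val_one_add v ht
  have hne : (1 + t) ≠ 0 := by
    intro h0; rw [h0, v.map_zero] at h1; exact zero_ne_one h1
  cases A with
  | ofNat n =>
    have hn : ¬ p ∣ n := by
      intro hd; exact hA (Int.natCast_dvd_natCast.mpr hd)
    simpa using val_one_add_pow_sub_one v hvp ht hn
  | negSucc n =>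
    have hn : ¬ p ∣ n + 1 := by
      intro hd
      apply hA
      rw [Int.negSucc_eq]
      exact (dvd_neg).mpr (by exact_mod_cast hd)
    rw [zpow_negSucc]
    have hpne : (1 + t) ^ (n + 1) ≠ 0 := pow_ne_zero _ hne
    have heq : ((1 + t) ^ (n + 1))⁻¹ - 1 = -((1 + t) ^ (n + 1) - 1) * ((1 + t) ^ (n + 1))⁻¹ := by
      field_simp
      ring
    rw [heq, map_mul, Valuation.map_neg, map_inv₀, v.map_pow, h1, one_pow, inv_one, mul_one]
    exact val_one_add_pow_sub_one v hvp ht hn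

end OneAdd

/-! ### The Kummer element -/

section Kummer

variable {p : ℕ} [hp : Fact p.Prime] {ζ : L} (hζ : IsPrimitiveRoot ζ p) {y : L}
  (hu1 : v (y ^ p - 1) < 1) (hu2 : v (ζ - 1) ^ p < v (y ^ p - 1))

include hu1 hu2

omit hp in
theorem val_zeta_sub_one_lt_one : v (ζ - 1) < 1 := by
  by_contra h
  rw [not_lt] at h
  have : (1 : Γ₀) ≤ v (ζ - 1) ^ p := one_le_pow₀ h
  exact absurd (lt_trans hu2 hu1) (not_lt.mpr this)

include hζ

theorem val_p_lt_one : v (p : L) < 1 := by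
  rw [val_p_eq v hζ]
  exact pow_lt_one₀ zero_le (val_zeta_sub_one_lt_one v hu1 hu2)
    (Nat.sub_ne_zero_of_lt hp.out.one_lt)

omit hζ hu2 in
theorem val_y : v y = 1 := by
  have h : v (y ^ p) = 1 := by
    have : y ^ p = 1 + (y ^ p - 1) := by ring
    rw [this]; exact v.map_one_add_of_lt hu1
  rw [v.map_pow] at h
  exact eq_one_of_pow_eq_one hp.out.ne_zero h

omit hζ hu2 in
/-- the binomial expansion `y ^ p - 1 = z ^ p + p z S`, `z = y - 1`, `v S ≤ 1`. -/
theorem exists_expansion :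
    ∃ S : L, v S ≤ 1 ∧ y ^ p - 1 = (y - 1) ^ p + (p : L) * (y - 1) * S := by
  have hz : v (y - 1) ≤ 1 :=
    (v.map_sub _ _).trans (max_le (le_of_eq (val_y v hu1)) (le_of_eq v.map_one))
  refine ⟨∑ k ∈ Ioo 0 p, (y - 1) ^ (k - 1) * 1 ^ (p - k - 1) * ((p.choose k / p : ℕ) : L), ?_, ?_⟩
  · refine v.map_sum_le fun k _ => ?_
    rw [map_mul, map_mul, v.map_pow, v.map_pow, v.map_one, one_pow, mul_one]
    calc v (y - 1) ^ (k - 1) * v ((p.choose k / p : ℕ) : L) ≤ 1 * 1 :=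
          mul_le_mul' (pow_le_one₀ zero_le hz) (val_natCast_le_one v _)
      _ = 1 := one_mul 1
  · have h := add_pow_prime_eq hp.out (y - 1) (1 : L)
    rw [sub_add_cancel, one_pow, mul_one] at h
    rw [h]; ring

/-- **`v (ζ - 1) < v (y - 1) < 1`**. -/
theorem val_sub_one_bounds : v (ζ - 1) < v (y - 1) ∧ v (y - 1) < 1 := by
  obtain ⟨S, hS, hexp⟩ := exists_expansion v hu1
  have hvp := val_p_lt_one v hζ hu1 hu2
  have hz : v (y - 1) ≤ 1 :=
    (v.map_sub _ _).trans (max_le (le_of_eq (val_y v hu1)) (le_of_eq v.map_one))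
  have hpzS : v ((p : L) * (y - 1) * S) ≤ v (p : L) * v (y - 1) := by
    rw [map_mul, map_mul]
    calc v (p : L) * v (y - 1) * v S ≤ v (p : L) * v (y - 1) * 1 := mul_le_mul' le_rfl hS
      _ = v (p : L) * v (y - 1) := mul_one _
  constructor
  · by_contra hcon
    rw [not_lt] at hcon
    -- both terms are `≤ v (ζ - 1) ^ p`
    have h1 : v ((y - 1) ^ p) ≤ v (ζ - 1) ^ p := by
      rw [v.map_pow]; exact pow_le_pow_left₀ zero_le hcon p
    have h2 : v ((p : L) * (y - 1) * S) ≤ v (ζ - 1) ^ p := by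
      refine hpzS.trans ?_
      rw [val_p_eq v hζ]
      calc v (ζ - 1) ^ (p - 1) * v (y - 1) ≤ v (ζ - 1) ^ (p - 1) * v (ζ - 1) :=
            mul_le_mul' le_rfl hcon
        _ = v (ζ - 1) ^ p := by
            rw [← pow_succ, Nat.sub_add_cancel hp.out.one_le]
    have : v (y ^ p - 1) ≤ v (ζ - 1) ^ p := by
      rw [hexp]; exact v.map_add_le h1 h2
    exact absurd hu2 (not_lt.mpr this)
  · by_contra hcon
    have hz1 : v (y - 1) = 1 := le_antisymm hz (not_lt.mp hcon)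
    have h1 : v ((y - 1) ^ p) = 1 := by rw [v.map_pow, hz1, one_pow]
    have h2 : v ((p : L) * (y - 1) * S) < 1 := by
      refine lt_of_le_of_lt hpzS ?_
      rw [hz1, mul_one]; exact hvp
    have : v (y ^ p - 1) = 1 := by
      rw [hexp, v.map_add_eq_of_lt_left (by rw [h1]; exact h2), h1]
    rw [this] at hu1
    exact lt_irrefl _ hu1

/-- **`v (y - 1) ^ p = v (y ^ p - 1)`**: the `z ^ p` term dominates. -/
theorem val_sub_one_pow : v (y - 1) ^ p = v (y ^ p - 1) := by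
  obtain ⟨S, hS, hexp⟩ := exists_expansion v hu1
  obtain ⟨hlo, hhi⟩ := val_sub_one_bounds v hζ hu1 hu2
  have hzpos : 0 < v (y - 1) := lt_of_le_of_lt zero_le hlo
  have hpzS : v ((p : L) * (y - 1) * S) < v ((y - 1) ^ p) := by
    rw [map_mul, map_mul, v.map_pow]
    calc v (p : L) * v (y - 1) * v S ≤ v (p : L) * v (y - 1) * 1 := mul_le_mul' le_rfl hS
      _ = v (ζ - 1) ^ (p - 1) * v (y - 1) := by rw [mul_one, val_p_eq v hζ]
      _ < v (y - 1) ^ (p - 1) * v (y - 1) := by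
          refine mul_lt_mul_of_pos_right ?_ hzpos
          exact pow_lt_pow_left₀ hlo zero_le (Nat.sub_ne_zero_of_lt hp.out.one_lt)
      _ = v (y - 1) ^ p := by rw [← pow_succ, Nat.sub_add_cancel hp.out.one_le]
  rw [hexp, v.map_add_eq_of_lt_left hpzS, v.map_pow]

theorem sub_one_ne_zero : y - 1 ≠ 0 := by
  intro h
  have := (val_sub_one_bounds v hζ hu1 hu2).1
  rw [h, v.map_zero] at this
  exact not_lt_zero this

omit hζ hu2 in
/-- For a ring hom `σ` with `σ y = ζ * y`: `v (σ y - y) = v (ζ - 1)`. -/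
theorem val_sigma_sub (σ : L →+* L) (hσy : σ y = ζ * y) : v (σ y - y) = v (ζ - 1) := by
  have : σ y - y = (ζ - 1) * y := by rw [hσy]; ring
  rw [this, map_mul, val_y v hu1, mul_one]

/-- **Kummer break.**  `Π = (y - 1) ^ A * π ^ B` with `p ∤ A`, `σ π = π`, `σ y = ζ y`:
`v (σ Π - Π) = v Π * v (ζ - 1) / v (y - 1)`. -/
theorem kummer_break (σ : L →+* L) (hσy : σ y = ζ * y) {π : L} (hσπ : σ π = π) {A B : ℤ}
    (hA : ¬ (p : ℤ) ∣ A) :
    v (σ ((y - 1) ^ A * π ^ B) - (y - 1) ^ A * π ^ B) =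
      v ((y - 1) ^ A * π ^ B) * (v (ζ - 1) / v (y - 1)) := by
  obtain ⟨hlo, hhi⟩ := val_sub_one_bounds v hζ hu1 hu2
  have hvp := val_p_lt_one v hζ hu1 hu2
  have hz0 : y - 1 ≠ 0 := sub_one_ne_zero v hζ hu1 hu2
  have hzpos : 0 < v (y - 1) := lt_of_le_of_lt zero_le hlo
  set t : L := (ζ - 1) * y / (y - 1) with ht
  have hvt : v t = v (ζ - 1) / v (y - 1) := by
    rw [ht, map_div₀, map_mul, val_y v hu1, mul_one]
  have hvt1 : v t < 1 := by
    rw [hvt]
    exact (div_lt_one₀ hzpos).mpr hlo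
  have hσz : σ (y - 1) = (y - 1) * (1 + t) := by
    rw [map_sub, map_one, hσy, ht]
    field_simp
    ring
  have hσP : σ ((y - 1) ^ A * π ^ B) - (y - 1) ^ A * π ^ B =
      ((y - 1) ^ A * π ^ B) * ((1 + t) ^ A - 1) := by
    rw [map_mul, map_zpow₀, map_zpow₀, hσπ, hσz, mul_zpow]
    ring
  rw [hσP, map_mul, val_one_add_zpow_sub_one v hvp hvt1 hA, hvt]

end Kummer

/-! ### Variants -/

section Variants

variable {p : ℕ} [hp : Fact p.Prime] {ζ : L} (hζ : IsPrimitiveRoot ζ p) {y : L}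
  (hu1 : v (y ^ p - 1) < 1) (hu2 : v (ζ - 1) ^ p < v (y ^ p - 1))

include hζ hu1 hu2

/-- The same for any `σ` with `σ y = ζ ^ k * y`, `p ∤ k` (all non-trivial elements of the cyclic
group have the same `i(σ)`). -/
theorem kummer_break_pow (σ : L →+* L) {k : ℕ} (hk : ¬ p ∣ k) (hσy : σ y = ζ ^ k * y) {π : L}
    (hσπ : σ π = π) {A B : ℤ} (hA : ¬ (p : ℤ) ∣ A) :
    v (σ ((y - 1) ^ A * π ^ B) - (y - 1) ^ A * π ^ B) =
      v ((y - 1) ^ A * π ^ B) * (v (ζ - 1) / v (y - 1)) := by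
  have hcop : Nat.Coprime k p := ((Nat.Prime.coprime_iff_not_dvd hp.out).mpr hk).symm
  have hζk : IsPrimitiveRoot (ζ ^ k) p := hζ.pow_of_coprime k hcop
  have hval : v (ζ ^ k - 1) = v (ζ - 1) := val_zeta_pow_sub_one v hζ hk
  have := kummer_break v hζk hu1 (by rw [hval]; exact hu2) σ hσy hσπ hA (B := B)
  rw [hval] at this
  exact this

/-- Normalised form: `v Π = g`, `v (ζ - 1) = g ^ J`, `v (y - 1) = g ^ j` (`g ≠ 0`) ⟹
`v (σ Π - Π) = g ^ (1 + J - j)`. -/
theorem kummer_break_normalised (σ : L →+* L) {k : ℕ} (hk : ¬ p ∣ k) (hσy : σ y = ζ ^ k * y) {π : L}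
    (hσπ : σ π = π) {A B : ℤ} (hA : ¬ (p : ℤ) ∣ A) {g : Γ₀} (hg : g ≠ 0) {J j : ℤ}
    (hPi : v ((y - 1) ^ A * π ^ B) = g) (hJ : v (ζ - 1) = g ^ J) (hj : v (y - 1) = g ^ j) :
    v (σ ((y - 1) ^ A * π ^ B) - (y - 1) ^ A * π ^ B) = g ^ (1 + J - j) := by
  rw [kummer_break_pow v hζ hu1 hu2 σ hk hσy hσπ hA, hPi, hJ, hj, ← zpow_sub₀ hg,
    ← zpow_one_add₀ hg]
  congr 1
  ring

end Variants

/-- Bézout: `p ∤ j` ⟹ exponents `A, B` with `A j + B p = 1`, and then `p ∤ A`. -/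
theorem exists_uniformiser_exponents {p : ℕ} [hp : Fact p.Prime] {j : ℤ} (hj : ¬ (p : ℤ) ∣ j) :
    ∃ A B : ℤ, ¬ (p : ℤ) ∣ A ∧ A * j + B * p = 1 := by
  have hpZ : Prime (p : ℤ) := Nat.prime_iff_prime_int.mp hp.out
  have hcop : IsCoprime j (p : ℤ) := (hpZ.coprime_iff_not_dvd.mpr hj).symm
  obtain ⟨A, B, hAB⟩ := hcop
  refine ⟨A, B, ?_, hAB⟩
  intro hd
  have : (p : ℤ) ∣ A * j + B * p := dvd_add (hd.mul_right j) (dvd_mul_left _ _)
  rw [hAB] at this
  exact hpZ.not_isUnit (isUnit_of_dvd_one this)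

/-- With the exponents of `exists_uniformiser_exponents`: `v ((y-1)^A π^B) = g` when
`v (y - 1) = g ^ j`, `v π = g ^ p`. -/
theorem val_uniformiser {y π : L} {g : Γ₀} (hg : g ≠ 0) {p : ℕ} {j A B : ℤ}
    (hj : v (y - 1) = g ^ j) (hπ : v π = g ^ (p : ℤ)) (hAB : A * j + B * p = 1) :
    v ((y - 1) ^ A * π ^ B) = g := by
  rw [map_mul, map_zpow₀, map_zpow₀, hj, hπ, ← zpow_mul, ← zpow_mul, ← zpow_add₀ hg]
  have : j * A + (p : ℤ) * B = 1 := by rw [← hAB]; ring
  rw [this, zpow_one]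

end Fermat.Agent.GP.Ram.KummerBreak
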