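/-
GATE-P / S56 [P-FLAT] S56-FLAT-UNITFILT (helper75): the UNIT FILTRATION of a valued field modulo
`p`-th powers, in abstract valuation form (Mathlib only) — the model side of the supersingular
eigen-count (helper25 `EigenCount*`, helper28 `KummerDepth`).

`v : Valuation K Γ₀` is written multiplicatively: "level `γ`" means `v (u - 1) ≤ γ` (`γ < 1`);
for a discrete valuation with `v π = g` the level `i` is `γ = g ^ i`.

* `mul_sub_one`, `val_mul_sub_one_le`, `val_mul_sub_one_sub_le` : `gr^γ` is additive in `u - 1`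
  (`(u w - 1) - (u - 1) - (w - 1) = (u - 1)(w - 1)`).
* `val_inv_sub_one`, `val_div_sub_one_le` : inverses / quotients.
* `twist_leading_coeff` : `(τ u - 1)/π^i = τ ((u - 1)/π^i) * (τ π/π)^i` for a ring hom `τ`.
* `exists_expansion'` : `w ^ p - 1 = z ^ p + p z (1 + z T)`, `z = w - 1`, `v T ≤ 1`.
* `val_pow_sub_one_of_lt` : `v p * δ < δ ^ p` (`δ = v (w - 1)`) ⟹ `v (w^p - 1) = δ ^ p` and
  `v ((w^p - 1) - (w - 1)^p) < δ ^ p`  (`lc(w^p) = lc(w)^p`).
* `val_pow_sub_one_of_gt` : `δ ^ p < v p * δ` ⟹ `v (w^p - 1) = v p * δ`.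
* `val_pow_sub_one_le_of_eq` : `δ ^ p = v p * δ` ⟹ `v (w^p - 1) ≤ δ ^ p`.
* `val_sub_one_lt_one_of_pow` : `v (w ^ p - 1) < 1 → v (w - 1) < 1`.
* **`level_raise`** : levels `γ ^ p` with `v p * γ < γ ^ p` carry no class when the residue field
  is perfect: `v (u - 1) ≤ γ ^ p` ⟹ `∃ w, v (u * w ^ p - 1) < γ ^ p`.
* **`val_sub_one_lt_of_eq_pow_mul`** : at a level `Γ` which is not a `p`-th power in `Γ₀`
  (`p ∤ i`) and above the Hensel bound (`v p ^ p < Γ ^ (p-1)`, i.e. `i < e' = p e/(p-1)`):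
  `u = w ^ p * u'`, `v (u - 1) ≤ Γ`, `v (u' - 1) < Γ` ⟹ `v (u - 1) < Γ`
  (the leading coefficient at level `Γ` is well defined and injective on classes mod `p`-th powers).
-/
import Mathlib

set_option autoImplicit false

namespace Fermat.Agent.GP.Ram.UnitFilt

open Finset

variable {K : Type*} [Field K] {Γ₀ : Type*} [LinearOrderedCommGroupWithZero Γ₀]
  (v : Valuation K Γ₀)

/-! ### Additivity of `u ↦ u - 1` on a level -/

theorem mul_sub_one (u w : K) : u * w - 1 - (u - 1) - (w - 1) = (u - 1) * (w - 1) := by ring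

theorem val_mul_sub_one_le {u w : K} {γ : Γ₀} (hγ : γ ≤ 1) (hu : v (u - 1) ≤ γ)
    (hw : v (w - 1) ≤ γ) : v (u * w - 1) ≤ γ := by
  have h : u * w - 1 = (u - 1) * (w - 1) + (u - 1) + (w - 1) := by ring
  rw [h]
  refine v.map_add_le (v.map_add_le ?_ hu) hw
  rw [map_mul]
  calc v (u - 1) * v (w - 1) ≤ γ * 1 := mul_le_mul' hu (hw.trans hγ)
    _ = γ := mul_one γ

theorem val_mul_sub_one_sub_le {u w : K} {γ : Γ₀} (hu : v (u - 1) ≤ γ) (hw : v (w - 1) ≤ γ) :
    v (u * w - 1 - (u - 1) - (w - 1)) ≤ γ * γ := by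
  rw [mul_sub_one, map_mul]
  exact mul_le_mul' hu hw

theorem val_mul_sub_one_lt {u w : K} {γ : Γ₀} (hu : v (u - 1) < γ) (hw : v (w - 1) < γ)
    (hγ : γ ≤ 1) : v (u * w - 1) < γ := by
  have h : u * w - 1 = (u - 1) * (w - 1) + (u - 1) + (w - 1) := by ring
  rw [h]
  refine v.map_add_lt (v.map_add_lt ?_ hu) hw
  rw [map_mul]
  calc v (u - 1) * v (w - 1) ≤ v (u - 1) * 1 := mul_le_mul' le_rfl ((le_of_lt hw).trans hγ)
    _ = v (u - 1) := mul_one _
    _ < γ := hu

theorem val_eq_one_of_sub_one_lt {u : K} (hu : v (u - 1) < 1) : v u = 1 := by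
  have : u = 1 + (u - 1) := by ring
  rw [this]; exact v.map_one_add_of_lt hu

theorem val_inv_sub_one {u : K} (hu : v (u - 1) < 1) : v (u⁻¹ - 1) = v (u - 1) := by
  have hu1 := val_eq_one_of_sub_one_lt v hu
  have hu0 : u ≠ 0 := by
    intro h; rw [h, v.map_zero] at hu1; exact zero_ne_one hu1
  have : u⁻¹ - 1 = -(u - 1) * u⁻¹ := by field_simp; ring
  rw [this, map_mul, Valuation.map_neg, map_inv₀, hu1, inv_one, mul_one]

theorem val_div_sub_one_le {u w : K} {γ : Γ₀} (hγ : γ < 1) (hu : v (u - 1) ≤ γ)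
    (hw : v (w - 1) ≤ γ) : v (u / w - 1) ≤ γ := by
  rw [div_eq_mul_inv]
  refine val_mul_sub_one_le v (le_of_lt hγ) hu ?_
  rw [val_inv_sub_one v (lt_of_le_of_lt hw hγ)]
  exact hw

/-! ### Twisting by a ring homomorphism -/

theorem twist_leading_coeff (τ : K →+* K) (u : K) {π : K} (hπ : π ≠ 0) (i : ℕ) :
    (τ u - 1) / π ^ i = τ ((u - 1) / π ^ i) * (τ π / π) ^ i := by
  have hτπ : τ π ≠ 0 := (map_ne_zero τ).mpr hπ
  rw [map_div₀, map_sub, map_one, map_pow, div_pow]
  field_simp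

/-! ### `p`-th powers -/

section Pow

variable {p : ℕ} [hp : Fact p.Prime]

theorem val_natCast_le_one' (n : ℕ) : v (n : K) ≤ 1 := by
  induction n with
  | zero => simp
  | succ n ih =>
    rw [Nat.cast_succ]
    exact (v.map_add _ _).trans (max_le ih (le_of_eq v.map_one))

/-- `w ^ p - 1 = z ^ p + p z (1 + z T)`, `z = w - 1`, with `v T ≤ 1` whenever `v z ≤ 1`. -/
theorem exists_expansion' (w : K) (hz : v (w - 1) ≤ 1) :
    ∃ T : K, v T ≤ 1 ∧ w ^ p - 1 = (w - 1) ^ p + (p : K) * (w - 1) * (1 + (w - 1) * T) := by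
  -- `(1 + z)^p = ∑ choose`, isolate `k = 0, 1, p`
  set z := w - 1 with hzdef
  have hw : w = z + 1 := by rw [hzdef]; ring
  have h := add_pow_prime_eq hp.out z (1 : K)
  -- sum over `Ioo 0 p` of `z^(k-1) * c_k`; the `k = 1` term is `choose p 1 / p = 1`
  set S : K := ∑ k ∈ Ioo 0 p, z ^ (k - 1) * 1 ^ (p - k - 1) * ((p.choose k / p : ℕ) : K) with hS
  have hS1 : ∃ T : K, v T ≤ 1 ∧ S = 1 + z * T := by
    by_cases hp2 : p = 2
    · -- `Ioo 0 2 = {1}`
      refine ⟨0, by simp, ?_⟩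
      subst hp2
      have : Ioo 0 2 = ({1} : Finset ℕ) := by decide
      rw [hS, this, Finset.sum_singleton]
      norm_num
    · have hp3 : 3 ≤ p := by
        have := hp.out.two_le
        omega
      have h1mem : 1 ∈ Ioo 0 p := by rw [Finset.mem_Ioo]; omega
      refine ⟨∑ k ∈ (Ioo 0 p).erase 1, z ^ (k - 2) * ((p.choose k / p : ℕ) : K), ?_, ?_⟩
      · refine v.map_sum_le fun k _ => ?_
        rw [map_mul, v.map_pow]
        calc v z ^ (k - 2) * v ((p.choose k / p : ℕ) : K) ≤ 1 * 1 :=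
              mul_le_mul' (pow_le_one₀ zero_le hz) (val_natCast_le_one' v _)
          _ = 1 := one_mul 1
      · rw [hS, ← Finset.add_sum_erase _ _ h1mem]
        congr 1
        · have h1 : p.choose 1 / p = 1 := by
            rw [Nat.choose_one_right, Nat.div_self hp.out.pos]
          rw [h1]
          simp
        · rw [Finset.mul_sum]
          refine Finset.sum_congr rfl fun k hk => ?_
          rw [Finset.mem_erase, Finset.mem_Ioo] at hk
          have hk2 : 2 ≤ k := by omega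
          have : k - 1 = (k - 2) + 1 := by omega
          rw [this, pow_succ, one_pow, mul_one]
          ring
  obtain ⟨T, hT, hST⟩ := hS1
  refine ⟨T, hT, ?_⟩
  have h' : w ^ p = z ^ p + 1 + (p : K) * z * 1 * S := by
    rw [hw]
    simpa [hS] using h
  rw [h', hST]
  ring

variable {w : K}

/-- `v (w - 1) < 1` as soon as `v (w ^ p - 1) < 1` and `v p < 1`. -/
theorem val_sub_one_lt_one_of_pow (hvp : v (p : K) < 1) (hw : v (w ^ p - 1) < 1) :
    v (w - 1) < 1 := by
  have hwp : v (w ^ p) = 1 := val_eq_one_of_sub_one_lt v hw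
  have hw1 : v w = 1 := by
    rw [v.map_pow] at hwp
    rcases lt_trichotomy (v w) 1 with hlt | heq | hgt
    · exact absurd hwp (ne_of_lt (pow_lt_one₀ zero_le hlt hp.out.ne_zero))
    · exact heq
    · exact absurd hwp (ne_of_gt (one_lt_pow₀ hgt hp.out.ne_zero))
  have hz : v (w - 1) ≤ 1 :=
    (v.map_sub _ _).trans (max_le (le_of_eq hw1) (le_of_eq v.map_one))
  by_contra hcon
  have hz1 : v (w - 1) = 1 := le_antisymm hz (not_lt.mp hcon)
  obtain ⟨T, hT, hexp⟩ := exists_expansion' (p := p) v w hz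
  have h1 : v ((w - 1) ^ p) = 1 := by rw [v.map_pow, hz1, one_pow]
  have h2 : v ((p : K) * (w - 1) * (1 + (w - 1) * T)) < 1 := by
    rw [map_mul, map_mul, hz1, mul_one]
    have h3 : v (1 + (w - 1) * T) ≤ 1 := by
      refine v.map_add_le (le_of_eq v.map_one) ?_
      rw [map_mul, hz1, one_mul]; exact hT
    calc v (p : K) * v (1 + (w - 1) * T) ≤ v (p : K) * 1 := mul_le_mul' le_rfl h3
      _ = v (p : K) := mul_one _
      _ < 1 := hvp
  have : v (w ^ p - 1) = 1 := by
    rw [hexp, v.map_add_eq_of_lt_left (by rw [h1]; exact h2), h1]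
  rw [this] at hw
  exact lt_irrefl _ hw

omit hp in
/-- the middle term `p z (1 + z T)` has valuation `v p * v z` when `v z < 1`. -/
theorem val_middle {T : K} (hT : v T ≤ 1) (hz : v (w - 1) < 1) :
    v ((p : K) * (w - 1) * (1 + (w - 1) * T)) = v (p : K) * v (w - 1) := by
  have h3 : v (1 + (w - 1) * T) = 1 := by
    refine v.map_one_add_of_lt ?_
    rw [map_mul]
    calc v (w - 1) * v T ≤ v (w - 1) * 1 := mul_le_mul' le_rfl hT
      _ = v (w - 1) := mul_one _
      _ < 1 := hz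
  rw [map_mul, map_mul, h3, mul_one]

/-- Shallow case `s < e/(p-1)`: `v (w^p - 1) = v (w - 1)^p`, leading coefficient `lc(w)^p`. -/
theorem val_pow_sub_one_of_lt (hz : v (w - 1) < 1) (h : v (p : K) * v (w - 1) < v (w - 1) ^ p) :
    v (w ^ p - 1) = v (w - 1) ^ p ∧ v (w ^ p - 1 - (w - 1) ^ p) < v (w - 1) ^ p := by
  obtain ⟨T, hT, hexp⟩ := exists_expansion' (p := p) v w (le_of_lt hz)
  have hmid := val_middle (p := p) v hT hz
  constructor
  · rw [hexp, v.map_add_eq_of_lt_left (by rw [v.map_pow, hmid]; exact h), v.map_pow]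
  · have : w ^ p - 1 - (w - 1) ^ p = (p : K) * (w - 1) * (1 + (w - 1) * T) := by
      rw [hexp]; ring
    rw [this, hmid]; exact h

/-- Deep case `s > e/(p-1)`: `v (w^p - 1) = v p * v (w - 1)`. -/
theorem val_pow_sub_one_of_gt (hz : v (w - 1) < 1) (h : v (w - 1) ^ p < v (p : K) * v (w - 1)) :
    v (w ^ p - 1) = v (p : K) * v (w - 1) := by
  obtain ⟨T, hT, hexp⟩ := exists_expansion' (p := p) v w (le_of_lt hz)
  have hmid := val_middle (p := p) v hT hz
  rw [hexp, v.map_add_eq_of_lt_right (by rw [v.map_pow, hmid]; exact h), hmid]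

/-- Boundary case `s = e/(p-1)`. -/
theorem val_pow_sub_one_le_of_eq (hz : v (w - 1) < 1) (h : v (w - 1) ^ p = v (p : K) * v (w - 1)) :
    v (w ^ p - 1) ≤ v (w - 1) ^ p := by
  obtain ⟨T, hT, hexp⟩ := exists_expansion' (p := p) v w (le_of_lt hz)
  have hmid := val_middle (p := p) v hT hz
  rw [hexp]
  refine v.map_add_le (le_of_eq (v.map_pow _ _)) ?_
  rw [hmid, h]

/-! ### Level raising at levels divisible by `p` -/

/-- **Level raising.** If the residue field is perfect, a unit of level `γ ^ p` (with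
`v p * γ < γ ^ p`, i.e. `p s < e'`) is, modulo `p`-th powers, of strictly higher level. -/
theorem level_raise (hperf : ∀ a : K, v a ≤ 1 → ∃ b : K, v b ≤ 1 ∧ v (b ^ p - a) < 1)
    {u ϖ : K} (hϖ0 : ϖ ≠ 0) (hϖ1 : v ϖ < 1) (h : v (p : K) * v ϖ < v ϖ ^ p)
    (hu : v (u - 1) ≤ v ϖ ^ p) : ∃ w : K, v (w - 1) ≤ v ϖ ∧ v (u * w ^ p - 1) < v ϖ ^ p := by
  set γ := v ϖ with hγ
  have hγpos : 0 < γ := by rw [hγ]; exact (v.pos_iff).mpr hϖ0
  set a : K := (u - 1) / ϖ ^ p with ha
  have hva : v a ≤ 1 := by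
    rw [ha, map_div₀, v.map_pow]
    exact (div_le_one₀ (pow_pos hγpos p)).mpr hu
  have hu_eq : u = 1 + a * ϖ ^ p := by
    rw [ha]; field_simp; ring
  obtain ⟨b, hb1, hb⟩ := hperf (-a) (by rw [Valuation.map_neg]; exact hva)
  set x : K := b * ϖ with hx
  have hvx : v x ≤ γ := by
    rw [hx, map_mul]
    calc v b * v ϖ ≤ 1 * v ϖ := mul_le_mul' hb1 le_rfl
      _ = γ := one_mul _
  have hvx1 : v x < 1 := lt_of_le_of_lt hvx hϖ1
  refine ⟨1 + x, by rw [add_sub_cancel_left]; exact hvx, ?_⟩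
  obtain ⟨T, hT, hexp⟩ := exists_expansion' (p := p) v (1 + x)
    (by rw [add_sub_cancel_left]; exact le_of_lt hvx1)
  rw [add_sub_cancel_left] at hexp
  have hwp : (1 + x) ^ p = 1 + x ^ p + (p : K) * x * (1 + x * T) := by
    have := hexp
    linear_combination this
  -- the three pieces
  have hmid : v ((p : K) * x * (1 + x * T)) < γ ^ p := by
    have h3 : v (1 + x * T) = 1 := by
      refine v.map_one_add_of_lt ?_
      rw [map_mul]
      calc v x * v T ≤ v x * 1 := mul_le_mul' le_rfl hT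
        _ = v x := mul_one _
        _ < 1 := hvx1
    rw [map_mul, map_mul, h3, mul_one]
    calc v (p : K) * v x ≤ v (p : K) * γ := mul_le_mul' le_rfl hvx
      _ < γ ^ p := h
  have hlead : v ((a + b ^ p) * ϖ ^ p) < γ ^ p := by
    rw [map_mul, v.map_pow]
    have : v (a + b ^ p) < 1 := by
      have : a + b ^ p = b ^ p - -a := by ring
      rw [this]; exact hb
    calc v (a + b ^ p) * γ ^ p < 1 * γ ^ p := mul_lt_mul_of_pos_right this (pow_pos hγpos p)
      _ = γ ^ p := one_mul _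
  have hxp : x ^ p = b ^ p * ϖ ^ p := by rw [hx, mul_pow]
  have hγp1 : γ ^ p < 1 := pow_lt_one₀ zero_le hϖ1 hp.out.ne_zero
  have hcross : v (a * ϖ ^ p * (x ^ p + (p : K) * x * (1 + x * T))) < γ ^ p := by
    rw [map_mul, map_mul, v.map_pow]
    have h5 : v (x ^ p + (p : K) * x * (1 + x * T)) < 1 := by
      refine v.map_add_lt ?_ (lt_trans hmid hγp1)
      rw [v.map_pow]
      exact pow_lt_one₀ zero_le hvx1 hp.out.ne_zero
    calc v a * γ ^ p * v (x ^ p + (p : K) * x * (1 + x * T))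
        ≤ 1 * γ ^ p * v (x ^ p + (p : K) * x * (1 + x * T)) :=
          mul_le_mul' (mul_le_mul' hva le_rfl) le_rfl
      _ = γ ^ p * v (x ^ p + (p : K) * x * (1 + x * T)) := by rw [one_mul]
      _ < γ ^ p * 1 := mul_lt_mul_of_pos_left h5 (pow_pos hγpos p)
      _ = γ ^ p := mul_one _
  have hdecomp : u * (1 + x) ^ p - 1 =
      (a + b ^ p) * ϖ ^ p + (p : K) * x * (1 + x * T) +
        a * ϖ ^ p * (x ^ p + (p : K) * x * (1 + x * T)) := by
    rw [hwp, hu_eq, hxp]; ring
  rw [hdecomp]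
  exact v.map_add_lt (v.map_add_lt hlead hmid) hcross

/-! ### Injectivity of the leading coefficient modulo `p`-th powers -/

/-- At a level `Γ < 1` which is NOT a `p`-th power in the value group (`p ∤ i`) and lies above the
Hensel bound (`v p ^ p < Γ ^ (p - 1)`, i.e. `i < p e/(p-1)`), a unit which is a `p`-th power times
a unit of strictly higher level is itself of strictly higher level. -/
theorem val_sub_one_lt_of_eq_pow_mul (hvp : v (p : K) < 1) {Γ : Γ₀} (hΓ1 : Γ < 1)
    (h1 : ∀ δ : Γ₀, δ ^ p ≠ Γ) (h2 : v (p : K) ^ p < Γ ^ (p - 1)) {u u' w : K}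
    (hu : v (u - 1) ≤ Γ) (hu' : v (u' - 1) < Γ) (h : u = w ^ p * u') : v (u - 1) < Γ := by
  have hu'1 : v (u' - 1) < 1 := lt_trans hu' hΓ1
  have hu'0 : u' ≠ 0 := by
    have := val_eq_one_of_sub_one_lt v hu'1
    intro h0; rw [h0, v.map_zero] at this; exact zero_ne_one this
  have hwp_eq : w ^ p = u / u' := by rw [h]; field_simp
  have hwp : v (w ^ p - 1) ≤ Γ := by
    rw [hwp_eq]
    exact val_div_sub_one_le v hΓ1 hu (le_of_lt hu')
  rcases lt_or_eq_of_le hwp with hlt | heq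
  · rw [h]
    exact val_mul_sub_one_lt v hlt hu' (le_of_lt hΓ1)
  · exfalso
    have hz : v (w - 1) < 1 :=
      val_sub_one_lt_one_of_pow v hvp (lt_of_le_of_lt hwp hΓ1)
    set δ := v (w - 1) with hδ
    have hp1 : p - 1 + 1 = p := Nat.sub_add_cancel hp.out.one_le
    rcases lt_trichotomy (v (p : K) * δ) (δ ^ p) with hc | hc | hc
    · -- shallow: `Γ = δ ^ p`
      exact h1 δ ((val_pow_sub_one_of_lt v hz hc).1.symm.trans heq)
    · -- boundary: `Γ ≤ δ ^ p = v p * δ`, so `Γ ^ (p-1) ≤ v p ^ p`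
      have hle : Γ ≤ δ ^ p := by rw [← heq]; exact val_pow_sub_one_le_of_eq v hz hc.symm
      have hδpos : 0 < δ := by
        rcases eq_or_lt_of_le (zero_le (a := δ)) with h0 | h0
        · exfalso
          rw [← h0] at hle
          rw [zero_pow hp.out.ne_zero] at hle
          have : Γ = 0 := le_antisymm hle zero_le
          rw [this] at h2
          rw [zero_pow (Nat.sub_ne_zero_of_lt hp.out.one_lt)] at h2
          exact not_lt_zero h2
        · exact h0
      -- `δ ^ (p-1) = v p`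
      have hδp : δ ^ (p - 1) = v (p : K) := by
        have : δ ^ (p - 1) * δ = v (p : K) * δ := by rw [← pow_succ, hp1]; exact hc.symm
        exact mul_right_cancel₀ (ne_of_gt hδpos) this
      have : Γ ^ (p - 1) ≤ v (p : K) ^ p := by
        calc Γ ^ (p - 1) ≤ (δ ^ p) ^ (p - 1) := pow_le_pow_left₀ zero_le hle _
          _ = (δ ^ (p - 1)) ^ p := by rw [← pow_mul, ← pow_mul, mul_comm]
          _ = v (p : K) ^ p := by rw [hδp]
      exact absurd h2 (not_lt.mpr this)
    · -- deep: `Γ = v p * δ` with `δ ^ (p-1) < v p`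
      have hΓeq : Γ = v (p : K) * δ := heq.symm.trans (val_pow_sub_one_of_gt v hz hc)
      have hδpos : 0 < δ := by
        rcases eq_or_lt_of_le (zero_le (a := δ)) with h0 | h0
        · exfalso
          rw [hΓeq, ← h0, mul_zero, zero_pow (Nat.sub_ne_zero_of_lt hp.out.one_lt)] at h2
          exact not_lt_zero h2
        · exact h0
      have hδp : δ ^ (p - 1) < v (p : K) := by
        have : δ ^ (p - 1) * δ < v (p : K) * δ := by rw [← pow_succ, hp1]; exact hc
        exact lt_of_mul_lt_mul_right this zero_le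
      have : Γ ^ (p - 1) < v (p : K) ^ p := by
        rw [hΓeq, mul_pow]
        calc v (p : K) ^ (p - 1) * δ ^ (p - 1) < v (p : K) ^ (p - 1) * v (p : K) := by
              refine mul_lt_mul_of_pos_left hδp ?_
              have hvp0 : 0 < v (p : K) := lt_of_le_of_lt zero_le hδp
              exact pow_pos hvp0 _
          _ = v (p : K) ^ p := by rw [← pow_succ, hp1]
      exact absurd h2 (not_lt.mpr (le_of_lt this))

end Pow

end Fermat.Agent.GP.Ram.UnitFilt
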