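/-
GATE-P / S56 [P-FLAT] S56-FLAT-UNITFILT-TOP (helper75): the TOP PIECE `i = e' = p e/(p-1)` of the
unit filtration of a valued field modulo `p`-th powers (Artin–Schreier), in abstract valuation
form — continuation of `GP/Ram/UnitFilt.lean`.

`v : Valuation K Γ₀`, `ζ ∈ K` a primitive `p`-th root of unity, `lam := ζ - 1` (so `v lam ^ (p-1) =
v p`, level `e/(p-1)`; `v lam ^ p` is the level `e' = p e/(p-1)`).

* `exists_p_add_lam_pow` : `p + lam ^ (p-1) = -(p * lam * T)` with `v T ≤ 1`  (`p ≡ -lam^(p-1)`).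
* `exists_one_add_lam_mul_pow` : for `v x ≤ 1`,
  `(1 + lam x) ^ p - 1 - lam ^ p (x ^ p - x) = p lam² S` with `v S ≤ 1`.
* `val_one_add_lam_mul_pow` : `v ((1 + lam x) ^ p - 1 - lam ^ p (x ^ p - x)) ≤ v lam ^ (p + 1)`.
* **`top_level_raise`** : `v y ≤ 1`,
  `v ((u - 1)/lam^p - (y^p - y)) < 1` ⟹ `v (u / (1 + lam y)^p - 1) < v lam ^ p`
  (leading coefficient in `℘(κ)` ⟹ `u` is a `p`-th power times a unit of level `> e'`).
* **`top_injective`** : `u = w ^ p * u'`, `v (u - 1) ≤ v lam ^ p`, `v (u' - 1) < v lam ^ p` ⟹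
  `∃ x, v x ≤ 1 ∧ v ((u - 1)/lam^p - (x^p - x)) < 1`  (so `gr^{e'} ↪ κ/℘κ`).
* `isPow_iff_top` : under "units of level `> e'` are `p`-th powers" (Hensel), a unit of level
  `≥ e'` is a `p`-th power iff its leading coefficient lies in `℘(κ)`.
* **`twist_top`** : `τ ζ = ζ ^ c` ⟹ `(τ u - 1)/lam^p ≡ c · τ ((u - 1)/lam^p)` modulo the maximal
  ideal: Galois acts on `gr^{e'}` through the cyclotomic character (times the action on `κ/℘κ`,
  which is trivial).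
-/
import Fermat.Agent.GP.Ram.KummerBreak
import Fermat.Agent.GP.Ram.UnitFilt

set_option autoImplicit false

namespace Fermat.Agent.GP.Ram.UnitFiltTop

open Finset
open Fermat.Agent.GP.Ram.KummerBreak Fermat.Agent.GP.Ram.UnitFilt

variable {K : Type*} [Field K] {Γ₀ : Type*} [LinearOrderedCommGroupWithZero Γ₀]
  (v : Valuation K Γ₀) {p : ℕ} [hp : Fact p.Prime] {ζ : K} (hζ : IsPrimitiveRoot ζ p)

include hζ

omit [LinearOrderedCommGroupWithZero Γ₀] in
theorem lam_ne_zero : ζ - 1 ≠ 0 := sub_ne_zero.mpr (hζ.ne_one hp.out.one_lt)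

theorem val_lam_le_one : v (ζ - 1) ≤ 1 :=
  v.map_sub_le (le_of_eq (val_zeta v hζ)) (le_of_eq v.map_one)

theorem val_lam_pos : 0 < v (ζ - 1) := (v.pos_iff).mpr (lam_ne_zero hζ)

/-- `p ≡ - lam ^ (p - 1)` modulo `p lam`. -/
theorem exists_p_add_lam_pow :
    ∃ T : K, v T ≤ 1 ∧ (p : K) + (ζ - 1) ^ (p - 1) = -((p : K) * (ζ - 1) * T) := by
  obtain ⟨T, hT, hexp⟩ := exists_expansion' (p := p) v ζ (val_lam_le_one v hζ)
  rw [hζ.pow_eq_one, sub_self] at hexp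
  refine ⟨T, hT, ?_⟩
  have hp1 : p - 1 + 1 = p := Nat.sub_add_cancel hp.out.one_le
  have h : (ζ - 1) * ((p : K) + (ζ - 1) ^ (p - 1) + (p : K) * (ζ - 1) * T) = 0 := by
    have : (ζ - 1) ^ p = (ζ - 1) ^ (p - 1) * (ζ - 1) := by rw [← pow_succ, hp1]
    rw [this] at hexp
    linear_combination -hexp
  rcases mul_eq_zero.mp h with h0 | h0
  · exact absurd h0 (lam_ne_zero hζ)
  · linear_combination h0

/-- exact form of `(1 + lam x) ^ p ≡ 1 + lam ^ p (x ^ p - x)`. -/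
theorem exists_one_add_lam_mul_pow {x : K} (hx : v x ≤ 1) :
    ∃ S : K, v S ≤ 1 ∧ (1 + (ζ - 1) * x) ^ p - 1 - (ζ - 1) ^ p * (x ^ p - x) =
      (p : K) * (ζ - 1) ^ 2 * S := by
  obtain ⟨T, hT, hT'⟩ := exists_p_add_lam_pow v hζ
  have hlx : v ((ζ - 1) * x) ≤ 1 := by
    rw [map_mul]
    calc v (ζ - 1) * v x ≤ 1 * 1 := mul_le_mul' (val_lam_le_one v hζ) hx
      _ = 1 := one_mul 1
  obtain ⟨T₂, hT₂, hexp⟩ := exists_expansion' (p := p) v (1 + (ζ - 1) * x)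
    (by rw [add_sub_cancel_left]; exact hlx)
  rw [add_sub_cancel_left] at hexp
  refine ⟨x ^ 2 * T₂ - x * T, ?_, ?_⟩
  · refine v.map_sub_le ?_ ?_
    · rw [map_mul, v.map_pow]
      calc v x ^ 2 * v T₂ ≤ 1 * 1 := mul_le_mul' (pow_le_one₀ zero_le hx) hT₂
        _ = 1 := one_mul 1
    · rw [map_mul]
      calc v x * v T ≤ 1 * 1 := mul_le_mul' hx hT
        _ = 1 := one_mul 1
  · have hp1 : p - 1 + 1 = p := Nat.sub_add_cancel hp.out.one_le
    have hpow : (ζ - 1) ^ p = (ζ - 1) ^ (p - 1) * (ζ - 1) := by rw [← pow_succ, hp1]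
    rw [hexp, mul_pow, hpow]
    linear_combination (ζ - 1) * x * hT'

theorem val_one_add_lam_mul_pow {x : K} (hx : v x ≤ 1) :
    v ((1 + (ζ - 1) * x) ^ p - 1 - (ζ - 1) ^ p * (x ^ p - x)) ≤ v (ζ - 1) ^ (p + 1) := by
  obtain ⟨S, hS, h⟩ := exists_one_add_lam_mul_pow v hζ hx
  have hp1 : p - 1 + 1 = p := Nat.sub_add_cancel hp.out.one_le
  rw [h, map_mul, map_mul, v.map_pow, val_p_eq v hζ]
  calc v (ζ - 1) ^ (p - 1) * v (ζ - 1) ^ 2 * v S ≤ v (ζ - 1) ^ (p - 1) * v (ζ - 1) ^ 2 * 1 :=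
        mul_le_mul' le_rfl hS
    _ = v (ζ - 1) ^ (p + 1) := by
        rw [mul_one, ← pow_add]
        congr 1
        omega

variable (hlam : v (ζ - 1) < 1)

include hlam

theorem val_lam_pow_succ_lt : v (ζ - 1) ^ (p + 1) < v (ζ - 1) ^ p := by
  rw [pow_succ]
  calc v (ζ - 1) ^ p * v (ζ - 1) < v (ζ - 1) ^ p * 1 :=
        mul_lt_mul_of_pos_left hlam (pow_pos (val_lam_pos v hζ) p)
    _ = v (ζ - 1) ^ p := mul_one _

omit hζ in
theorem val_lam_pow_lt_one : v (ζ - 1) ^ p < 1 := pow_lt_one₀ zero_le hlam hp.out.ne_zero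

theorem val_p_lt_one' : v (p : K) < 1 := by
  rw [val_p_eq v hζ]
  exact pow_lt_one₀ zero_le hlam (Nat.sub_ne_zero_of_lt hp.out.one_lt)

/-- `v ((1 + lam x) ^ p - 1) ≤ v lam ^ p`. -/
theorem val_one_add_lam_mul_pow_sub_one_le {x : K} (hx : v x ≤ 1) :
    v ((1 + (ζ - 1) * x) ^ p - 1) ≤ v (ζ - 1) ^ p := by
  have h1 := val_one_add_lam_mul_pow v hζ hx
  have h2 : v ((ζ - 1) ^ p * (x ^ p - x)) ≤ v (ζ - 1) ^ p := by
    rw [map_mul, v.map_pow]
    have : v (x ^ p - x) ≤ 1 := by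
      refine v.map_sub_le ?_ hx
      rw [v.map_pow]; exact pow_le_one₀ zero_le hx
    calc v (ζ - 1) ^ p * v (x ^ p - x) ≤ v (ζ - 1) ^ p * 1 := mul_le_mul' le_rfl this
      _ = v (ζ - 1) ^ p := mul_one _
  have : (1 + (ζ - 1) * x) ^ p - 1 =
      ((1 + (ζ - 1) * x) ^ p - 1 - (ζ - 1) ^ p * (x ^ p - x)) + (ζ - 1) ^ p * (x ^ p - x) := by
    ring
  rw [this]
  exact v.map_add_le (h1.trans (le_of_lt (val_lam_pow_succ_lt v hζ hlam))) h2

/-- **Level raising at the top level `e'`.** -/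
theorem top_level_raise {u y : K} (hy : v y ≤ 1)
    (h : v ((u - 1) / (ζ - 1) ^ p - (y ^ p - y)) < 1) :
    v (u / (1 + (ζ - 1) * y) ^ p - 1) < v (ζ - 1) ^ p := by
  have hl0 := lam_ne_zero hζ
  have hΓpos : 0 < v (ζ - 1) ^ p := pow_pos (val_lam_pos v hζ) p
  set W : K := (1 + (ζ - 1) * y) ^ p with hW
  have hly : v ((ζ - 1) * y) < 1 := by
    rw [map_mul]
    calc v (ζ - 1) * v y ≤ v (ζ - 1) * 1 := mul_le_mul' le_rfl hy
      _ = v (ζ - 1) := mul_one _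
      _ < 1 := hlam
  have hvW : v W = 1 := by rw [hW, v.map_pow, v.map_one_add_of_lt hly, one_pow]
  have hW0 : W ≠ 0 := by
    intro h0; rw [h0, v.map_zero] at hvW; exact zero_ne_one hvW
  have hR := val_one_add_lam_mul_pow v hζ hy
  rw [← hW] at hR
  have hdecomp : u / W - 1 =
      ((ζ - 1) ^ p * ((u - 1) / (ζ - 1) ^ p - (y ^ p - y)) -
        (W - 1 - (ζ - 1) ^ p * (y ^ p - y))) / W := by
    field_simp
    ring
  rw [hdecomp, map_div₀, hvW, div_one]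
  refine v.map_sub_lt ?_ (lt_of_le_of_lt hR (val_lam_pow_succ_lt v hζ hlam))
  rw [map_mul, v.map_pow]
  calc v (ζ - 1) ^ p * v ((u - 1) / (ζ - 1) ^ p - (y ^ p - y)) < v (ζ - 1) ^ p * 1 :=
        mul_lt_mul_of_pos_left h hΓpos
    _ = v (ζ - 1) ^ p := mul_one _

/-- **Injectivity at the top level `e'`**: a unit of level `≥ e'` which is a `p`-th power times a
unit of level `> e'` has leading coefficient in `℘(κ)`. -/
theorem top_injective {u u' w : K} (hu : v (u - 1) ≤ v (ζ - 1) ^ p)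
    (hu' : v (u' - 1) < v (ζ - 1) ^ p) (h : u = w ^ p * u') :
    ∃ x : K, v x ≤ 1 ∧ v ((u - 1) / (ζ - 1) ^ p - (x ^ p - x)) < 1 := by
  have hl0 := lam_ne_zero hζ
  have hlpos := val_lam_pos v hζ
  have hΓpos : 0 < v (ζ - 1) ^ p := pow_pos hlpos p
  have hΓ1 := val_lam_pow_lt_one (p := p) v hlam
  have hvp := val_p_lt_one' v hζ hlam
  have hu'1 : v (u' - 1) < 1 := lt_trans hu' hΓ1
  have hu'0 : u' ≠ 0 := by
    have := val_eq_one_of_sub_one_lt v hu'1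
    intro h0; rw [h0, v.map_zero] at this; exact zero_ne_one this
  have hwp_eq : w ^ p = u / u' := by rw [h]; field_simp
  have hwp : v (w ^ p - 1) ≤ v (ζ - 1) ^ p := by
    rw [hwp_eq]
    exact val_div_sub_one_le v hΓ1 hu (le_of_lt hu')
  have hz : v (w - 1) < 1 := val_sub_one_lt_one_of_pow v hvp (lt_of_le_of_lt hwp hΓ1)
  -- `v (w - 1) ≤ v lam`
  have hδ : v (w - 1) ≤ v (ζ - 1) := by
    by_contra hcon
    rw [not_le] at hcon
    have hp1 : p - 1 + 1 = p := Nat.sub_add_cancel hp.out.one_le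
    have hδpos : 0 < v (w - 1) := lt_trans hlpos hcon
    have hsh : v (p : K) * v (w - 1) < v (w - 1) ^ p := by
      rw [val_p_eq v hζ, ← hp1, pow_succ (v (w - 1)), hp1]
      exact mul_lt_mul_of_pos_right
        (pow_lt_pow_left₀ hcon zero_le (Nat.sub_ne_zero_of_lt hp.out.one_lt)) hδpos
    have h1 := (val_pow_sub_one_of_lt v hz hsh).1
    have h2 : v (ζ - 1) ^ p < v (w - 1) ^ p := pow_lt_pow_left₀ hcon zero_le hp.out.ne_zero
    rw [← h1] at h2
    exact absurd hwp (not_le.mpr h2)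
  set x : K := (w - 1) / (ζ - 1) with hx
  have hvx : v x ≤ 1 := by
    rw [hx, map_div₀]
    exact (div_le_one₀ hlpos).mpr hδ
  have hw : w = 1 + (ζ - 1) * x := by rw [hx]; field_simp; ring
  refine ⟨x, hvx, ?_⟩
  have hR := val_one_add_lam_mul_pow v hζ hvx
  rw [← hw] at hR
  have hdecomp : (u - 1) / (ζ - 1) ^ p - (x ^ p - x) =
      ((w ^ p - 1 - (ζ - 1) ^ p * (x ^ p - x)) + (u' - 1) + (w ^ p - 1) * (u' - 1)) /
        (ζ - 1) ^ p := by
    rw [h]; field_simp; ring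
  rw [hdecomp, map_div₀, v.map_pow, div_lt_one₀ hΓpos]
  refine v.map_add_lt (v.map_add_lt ?_ hu') ?_
  · exact lt_of_le_of_lt hR (val_lam_pow_succ_lt v hζ hlam)
  · rw [map_mul]
    calc v (w ^ p - 1) * v (u' - 1) ≤ 1 * v (u' - 1) :=
          mul_le_mul' (hwp.trans (le_of_lt hΓ1)) le_rfl
      _ = v (u' - 1) := one_mul _
      _ < v (ζ - 1) ^ p := hu'

/-- Under Hensel's lemma in the form "units of level `> e'` are `p`-th powers", a unit of level
`≥ e'` is a `p`-th power iff its leading coefficient lies in `℘(κ)`. -/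
theorem isPow_iff_top (hhens : ∀ u' : K, v (u' - 1) < v (ζ - 1) ^ p → ∃ w : K, w ^ p = u')
    {u : K} (hu : v (u - 1) ≤ v (ζ - 1) ^ p) :
    (∃ w : K, w ^ p = u) ↔
      ∃ x : K, v x ≤ 1 ∧ v ((u - 1) / (ζ - 1) ^ p - (x ^ p - x)) < 1 := by
  constructor
  · rintro ⟨w, hw⟩
    refine top_injective v hζ hlam (u' := 1) (w := w) hu ?_ (by rw [hw, mul_one])
    rw [sub_self, v.map_zero]
    exact pow_pos (val_lam_pos v hζ) p
  · rintro ⟨y, hy, h⟩
    obtain ⟨w, hw⟩ := hhens _ (top_level_raise v hζ hlam hy h)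
    have hly : v ((ζ - 1) * y) < 1 := by
      rw [map_mul]
      calc v (ζ - 1) * v y ≤ v (ζ - 1) * 1 := mul_le_mul' le_rfl hy
        _ = v (ζ - 1) := mul_one _
        _ < 1 := hlam
    have h1 : (1 + (ζ - 1) * y) ≠ 0 := by
      have := v.map_one_add_of_lt hly
      intro h0; rw [h0, v.map_zero] at this; exact zero_ne_one this
    refine ⟨w * (1 + (ζ - 1) * y), ?_⟩
    rw [mul_pow, hw]
    field_simp

/-! ### The Galois twist on the top piece -/

omit hlam in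
/-- `τ lam = lam * ∑_{i<c} ζ^i` and `v (∑_{i<c} ζ^i - c) ≤ v lam`. -/
theorem val_geom_sub_natCast_le (c : ℕ) : v (∑ i ∈ range c, ζ ^ i - (c : K)) ≤ v (ζ - 1) := by
  have : ∑ i ∈ range c, ζ ^ i - (c : K) = ∑ i ∈ range c, (ζ ^ i - 1) := by
    rw [Finset.sum_sub_distrib]; simp
  rw [this]
  refine v.map_sum_le fun i _ => ?_
  exact val_pow_sub_one_le v (le_of_eq (val_zeta v hζ)) i

/-- `(τ lam / lam) ^ p ≡ c` modulo the maximal ideal when `τ ζ = ζ ^ c`. -/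
theorem val_twist_ratio_pow_sub (c : ℕ) :
    v ((∑ i ∈ range c, ζ ^ i) ^ p - (c : K)) < 1 := by
  set s : K := ∑ i ∈ range c, ζ ^ i with hs
  have hvs : v s ≤ 1 := val_geom_sum_le_one v (le_of_eq (val_zeta v hζ)) c
  have hsc : v (s - (c : K)) < 1 := lt_of_le_of_lt (val_geom_sub_natCast_le v hζ c) hlam
  -- `s ^ p - c ^ p = (s - c) * ∑ ...`
  have h1 : v (s ^ p - (c : K) ^ p) < 1 := by
    have hcomm : Commute s (c : K) := Commute.all _ _
    rw [← hcomm.mul_geom_sum₂, map_mul]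
    have : v (∑ i ∈ range p, s ^ i * (c : K) ^ (p - 1 - i)) ≤ 1 := by
      refine v.map_sum_le fun i _ => ?_
      rw [map_mul, v.map_pow, v.map_pow]
      calc v s ^ i * v (c : K) ^ (p - 1 - i) ≤ 1 * 1 :=
            mul_le_mul' (pow_le_one₀ zero_le hvs)
              (pow_le_one₀ zero_le (val_natCast_le_one v c))
        _ = 1 := one_mul 1
    calc v (s - (c : K)) * v (∑ i ∈ range p, s ^ i * (c : K) ^ (p - 1 - i))
        ≤ v (s - (c : K)) * 1 := mul_le_mul' le_rfl this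
      _ = v (s - (c : K)) := mul_one _
      _ < 1 := hsc
  -- `c ^ p - c ∈ p ℤ`
  have h2 : v ((c : K) ^ p - (c : K)) < 1 := by
    have hdvd : (p : ℤ) ∣ (c : ℤ) ^ p - c := by
      have : (((c : ℤ) ^ p - c : ℤ) : ZMod p) = 0 := by
        push_cast
        rw [ZMod.pow_card, sub_self]
      exact (ZMod.intCast_zmod_eq_zero_iff_dvd _ p).mp this
    obtain ⟨m, hm⟩ := hdvd
    have : (c : K) ^ p - (c : K) = (p : K) * (m : K) := by
      have := congrArg (Int.cast : ℤ → K) hm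
      push_cast at this
      exact this
    rw [this, map_mul]
    calc v (p : K) * v (m : K) ≤ v (p : K) * 1 := mul_le_mul' le_rfl (val_intCast_le_one v m)
      _ = v (p : K) := mul_one _
      _ < 1 := val_p_lt_one' v hζ hlam
  have : s ^ p - (c : K) = (s ^ p - (c : K) ^ p) + ((c : K) ^ p - (c : K)) := by ring
  rw [this]
  exact v.map_add_lt h1 h2

/-- **The Galois twist on the top piece**: if `τ ζ = ζ ^ c` then
`(τ u - 1)/lam^p ≡ c · τ ((u - 1)/lam^p)` modulo the maximal ideal. -/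
theorem twist_top (τ : K →+* K) {c : ℕ} (hτ : τ ζ = ζ ^ c) (u : K)
    (hτa : v (τ ((u - 1) / (ζ - 1) ^ p)) ≤ 1) :
    v ((τ u - 1) / (ζ - 1) ^ p - (c : K) * τ ((u - 1) / (ζ - 1) ^ p)) < 1 := by
  have hl0 := lam_ne_zero hζ
  have hratio : τ (ζ - 1) / (ζ - 1) = ∑ i ∈ range c, ζ ^ i := by
    rw [map_sub, map_one, hτ, ← geom_sum_mul]
    field_simp
  rw [twist_leading_coeff τ u hl0 p, hratio]
  have : τ ((u - 1) / (ζ - 1) ^ p) * (∑ i ∈ range c, ζ ^ i) ^ p -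
      (c : K) * τ ((u - 1) / (ζ - 1) ^ p) =
      τ ((u - 1) / (ζ - 1) ^ p) * ((∑ i ∈ range c, ζ ^ i) ^ p - (c : K)) := by ring
  rw [this, map_mul]
  calc v (τ ((u - 1) / (ζ - 1) ^ p)) * v ((∑ i ∈ range c, ζ ^ i) ^ p - (c : K))
      ≤ 1 * v ((∑ i ∈ range c, ζ ^ i) ^ p - (c : K)) := mul_le_mul' hτa le_rfl
    _ = v ((∑ i ∈ range c, ζ ^ i) ^ p - (c : K)) := one_mul _
    _ < 1 := val_twist_ratio_pow_sub v hζ hlam c

end Fermat.Agent.GP.Ram.UnitFiltTop
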