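/-
GATE-P (S56 long shot) / [P-FLAT] (iv), common adapter leaf (helper87): **totally ramified extensions are
monogenic, roots of Eisenstein polynomials are uniformisers** — in abstract valuation form.

`K ⊂ L` fields, `v : Valuation L Γ₀` (any value group), `α ∈ L`, `n` the expected degree.
`hgap : v α ^ d ∉ v (K)` for `0 < d < n` ("`v α` has order `n` modulo the value group of `K`").

* `val_term_le_val_sum` : `v (a_k α^k) ≤ v (∑_{k<n} a_k α^k)` for all `k` (`a_k ∈ K`): the terms have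
  pairwise distinct valuations, so the valuation of the sum is the largest of them;
* `eq_zero_of_sum_eq_zero`, `linearIndependent_pow`, `exists_coord` : `1, α, …, α^(n-1)` are linearly
  independent over `K`, hence a basis when `[L : K] = n`;
* `coord_integral` : if moreover `α^n` is "a uniformiser of `K`" (`huni`), then `v (∑ a_k α^k) ≤ 1` forces
  `v (a_k) ≤ 1` for all `k` : `O_L = ∑ O_K α^k`; `exists_coord_integral` : the packaged form;
* `eisenstein_root_val` : a root `β` of `X^n + ∑_{k<n} c_k X^k` with `v c_k ≤ v c_0 < 1` has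
  `v β ^ n = v c_0`;
* `powerBasisOfCoord`, `exists_algHom_of_root` : a ring `S = ⊕_{k<n} R α^k` is `R[X]/(P)` for any monic `P`
  of degree `n` killing `α`: every root `y` of `P` in an `R`-algebra `S'` gives `S →ₐ[R] S'`, `α ↦ y`
  (this is the map `O_L → O_E / (v > m)` of Fontaine's property `(P_m)`).
Mathlib only.
-/
import Mathlib

set_option autoImplicit false

namespace Fermat.Agent.GP.Ram.Monogenic

open Finset Polynomial

section Val

variable {K L : Type*} [Field K] [Field L] [Algebra K L]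
  {Γ₀ : Type*} [LinearOrderedCommGroupWithZero Γ₀] (v : Valuation L Γ₀)

/-- two terms `x α^k`, `y α^l` (`x, y ∈ K^×`, `k < l < n`) have different valuations -/
theorem val_term_ne {n : ℕ} {α : L} (hα : α ≠ 0)
    (hgap : ∀ d : ℕ, 0 < d → d < n → ∀ x : K, v (algebraMap K L x) ≠ v α ^ d)
    {x y : K} (hy : y ≠ 0) {k l : ℕ} (hkl : k < l) (hl : l < n) :
    v (algebraMap K L x * α ^ k) ≠ v (algebraMap K L y * α ^ l) := by
  intro h
  have hvα : v α ≠ 0 := (v.ne_zero_iff).mpr hα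
  have hy' : v (algebraMap K L y) ≠ 0 :=
    (v.ne_zero_iff).mpr (by rwa [ne_eq, map_eq_zero_iff _ (algebraMap K L).injective])
  apply hgap (l - k) (by omega) (by omega) (x / y)
  rw [map_div₀, map_div₀]
  rw [map_mul, map_mul, map_pow, map_pow] at h
  have e : v α ^ l = v α ^ (l - k) * v α ^ k := by
    rw [← pow_add]
    congr 1
    omega
  rw [e, ← mul_assoc] at h
  have h2 : v (algebraMap K L x) = v (algebraMap K L y) * v α ^ (l - k) :=
    mul_right_cancel₀ (pow_ne_zero k hvα) h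
  rw [h2, mul_div_cancel_left₀ _ hy']

/-- **the valuation of `∑_{k<n} a_k α^k` is the largest of the valuations of the terms** -/
theorem val_term_le_val_sum {n : ℕ} {α : L} (hα : α ≠ 0)
    (hgap : ∀ d : ℕ, 0 < d → d < n → ∀ x : K, v (algebraMap K L x) ≠ v α ^ d)
    (a : Fin n → K) (k : Fin n) :
    v (algebraMap K L (a k) * α ^ (k : ℕ)) ≤ v (∑ k : Fin n, algebraMap K L (a k) * α ^ (k : ℕ)) := by
  classical
  obtain ⟨k₀, -, hk₀⟩ := Finset.exists_max_image univ
    (fun k : Fin n => v (algebraMap K L (a k) * α ^ (k : ℕ))) ⟨k, mem_univ _⟩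
  by_cases h0 : v (algebraMap K L (a k₀) * α ^ (k₀ : ℕ)) = 0
  · have := hk₀ k (mem_univ _)
    rw [h0] at this
    exact this.trans zero_le
  have hne0 : ∀ i : Fin n, v (algebraMap K L (a i) * α ^ (i : ℕ)) ≠ 0 → a i ≠ 0 := by
    intro i hi hai
    apply hi
    rw [hai, map_zero, zero_mul, map_zero]
  have hlt : ∀ i ∈ univ \ {k₀}, v (algebraMap K L (a i) * α ^ (i : ℕ))
      < v (algebraMap K L (a k₀) * α ^ (k₀ : ℕ)) := by
    intro i hi
    have hne : i ≠ k₀ := by simpa using hi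
    rcases (hk₀ i (mem_univ _)).lt_or_eq with h | h
    · exact h
    · exfalso
      have hai : a i ≠ 0 := hne0 i (by rw [h]; exact h0)
      have hak : a k₀ ≠ 0 := hne0 k₀ h0
      have hne' : (i : ℕ) ≠ (k₀ : ℕ) := fun h' => hne (Fin.ext h')
      rcases lt_or_gt_of_ne hne' with hlt | hlt
      · exact val_term_ne v hα hgap hak hlt k₀.isLt h
      · exact val_term_ne v hα hgap hai hlt i.isLt h.symm
  rw [v.map_sum_eq_of_lt (mem_univ k₀) hlt]
  exact hk₀ k (mem_univ _)

/-- `1, α, …, α^(n-1)` are linearly independent over `K` (coordinate form) -/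
theorem eq_zero_of_sum_eq_zero {n : ℕ} {α : L} (hα : α ≠ 0)
    (hgap : ∀ d : ℕ, 0 < d → d < n → ∀ x : K, v (algebraMap K L x) ≠ v α ^ d)
    (a : Fin n → K) (h0 : ∑ k : Fin n, algebraMap K L (a k) * α ^ (k : ℕ) = 0) (k : Fin n) :
    a k = 0 := by
  have h := val_term_le_val_sum v hα hgap a k
  rw [h0, map_zero] at h
  have h1 : algebraMap K L (a k) * α ^ (k : ℕ) = 0 := (v.zero_iff).mp (le_antisymm h zero_le)
  rcases mul_eq_zero.mp h1 with h2 | h2
  · exact (map_eq_zero_iff _ (algebraMap K L).injective).mp h2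
  · exact absurd h2 (pow_ne_zero _ hα)

/-- `1, α, …, α^(n-1)` are linearly independent over `K` -/
theorem linearIndependent_pow {n : ℕ} {α : L} (hα : α ≠ 0)
    (hgap : ∀ d : ℕ, 0 < d → d < n → ∀ x : K, v (algebraMap K L x) ≠ v α ^ d) :
    LinearIndependent K (fun k : Fin n => α ^ (k : ℕ)) := by
  rw [Fintype.linearIndependent_iff]
  intro g hg k
  refine eq_zero_of_sum_eq_zero v hα hgap g ?_ k
  rw [← hg]
  exact Finset.sum_congr rfl fun i _ => (Algebra.smul_def _ _).symm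

/-- if `[L : K] = n`, every element of `L` is `∑_{k<n} a_k α^k` -/
theorem exists_coord {n : ℕ} (hn : 0 < n) {α : L} (hα : α ≠ 0)
    (hgap : ∀ d : ℕ, 0 < d → d < n → ∀ x : K, v (algebraMap K L x) ≠ v α ^ d)
    (hdeg : Module.finrank K L = n) (x : L) :
    ∃ a : Fin n → K, x = ∑ k : Fin n, algebraMap K L (a k) * α ^ (k : ℕ) := by
  have : Nonempty (Fin n) := ⟨⟨0, hn⟩⟩
  have hspan := (linearIndependent_pow v hα hgap).span_eq_top_of_card_eq_finrank
    (by rw [Fintype.card_fin, hdeg])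
  have hx : x ∈ Submodule.span K (Set.range fun k : Fin n => α ^ (k : ℕ)) := by
    rw [hspan]; trivial
  obtain ⟨a, ha⟩ := (Submodule.mem_span_range_iff_exists_fun K).mp hx
  refine ⟨a, ?_⟩
  rw [← ha]
  exact Finset.sum_congr rfl fun i _ => Algebra.smul_def _ _

/-- **`O_L = ∑ O_K α^k`**: if `v α < 1` and every `x ∈ K` with `1 < v x` has `(v α ^ n)⁻¹ ≤ v x`
(i.e. `α ^ n` has the valuation of a uniformiser of `K`), an integral `∑ a_k α^k` has integral
coordinates. -/
theorem coord_integral {n : ℕ} {α : L} (hα : α ≠ 0) (hα1 : v α < 1)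
    (hgap : ∀ d : ℕ, 0 < d → d < n → ∀ x : K, v (algebraMap K L x) ≠ v α ^ d)
    (huni : ∀ x : K, 1 < v (algebraMap K L x) → (v α ^ n)⁻¹ ≤ v (algebraMap K L x))
    (a : Fin n → K) (hint : v (∑ k : Fin n, algebraMap K L (a k) * α ^ (k : ℕ)) ≤ 1) (k : Fin n) :
    v (algebraMap K L (a k)) ≤ 1 := by
  by_contra hlt
  rw [not_le] at hlt
  have hvα : v α ≠ 0 := (v.ne_zero_iff).mpr hα
  have hpos : 0 < v α := zero_lt_iff.mpr hvα
  have h1 := (val_term_le_val_sum v hα hgap a k).trans hint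
  rw [map_mul, map_pow] at h1
  have h2 := huni (a k) hlt
  -- `(v α ^ n)⁻¹ * v α ^ k ≤ v (a k) * v α ^ k ≤ 1`
  have h3 : (v α ^ n)⁻¹ * v α ^ (k : ℕ) ≤ 1 := (mul_le_mul_left h2 _).trans h1
  have e : v α ^ n = v α ^ (n - k) * v α ^ (k : ℕ) := by
    rw [← pow_add]
    congr 1
    have := k.isLt
    omega
  rw [e, mul_inv, mul_assoc, inv_mul_cancel₀ (pow_ne_zero _ hvα), mul_one] at h3
  have h4 : v α ^ (n - k) < 1 := pow_lt_one₀ zero_le hα1 (by have := k.isLt; omega)
  have h5 : 1 < (v α ^ (n - k))⁻¹ := (one_lt_inv₀ (pow_pos hpos _)).mpr h4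
  exact absurd h3 (not_le.mpr h5)

/-- **`O_L = O_K[α]`**, packaged: if `[L : K] = n`, every `x ∈ L` with `v x ≤ 1` is
`∑_{k<n} a_k α^k` with `a_k ∈ K`, `v a_k ≤ 1`. -/
theorem exists_coord_integral {n : ℕ} (hn : 0 < n) {α : L} (hα : α ≠ 0) (hα1 : v α < 1)
    (hgap : ∀ d : ℕ, 0 < d → d < n → ∀ x : K, v (algebraMap K L x) ≠ v α ^ d)
    (huni : ∀ x : K, 1 < v (algebraMap K L x) → (v α ^ n)⁻¹ ≤ v (algebraMap K L x))
    (hdeg : Module.finrank K L = n) (x : L) (hx : v x ≤ 1) :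
    ∃ a : Fin n → K, (∀ k, v (algebraMap K L (a k)) ≤ 1) ∧
      x = ∑ k : Fin n, algebraMap K L (a k) * α ^ (k : ℕ) := by
  obtain ⟨a, ha⟩ := exists_coord v hn hα hgap hdeg x
  exact ⟨a, fun k => coord_integral v hα hα1 hgap huni a (ha ▸ hx) k, ha⟩

/-- **A root of an Eisenstein polynomial is a uniformiser**: if
`β^n + ∑_{k<n} c_k β^k = 0` with `v c_k ≤ v c_0 < 1`, `c_0 ≠ 0`, then `v β ^ n = v c_0`. -/
theorem eisenstein_root_val {n : ℕ} (hn : 0 < n) {β : L} (c : Fin n → L)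
    (hc : ∀ k, v (c k) ≤ v (c ⟨0, hn⟩)) (hc0 : v (c ⟨0, hn⟩) < 1) (hc0' : c ⟨0, hn⟩ ≠ 0)
    (hroot : β ^ n + ∑ k : Fin n, c k * β ^ (k : ℕ) = 0) :
    v β ^ n = v (c ⟨0, hn⟩) := by
  classical
  set g := v (c ⟨0, hn⟩) with hg
  have hg0 : g ≠ 0 := (v.ne_zero_iff).mpr hc0'
  have hgpos : 0 < g := zero_lt_iff.mpr hg0
  -- Step 1: `v β < 1`
  have hβ1 : v β < 1 := by
    by_contra hge
    rw [not_lt] at hge
    have hβ0 : v β ≠ 0 := fun h => by rw [h] at hge; exact absurd hge (not_le.mpr zero_lt_one)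
    have hlt : v (∑ k : Fin n, c k * β ^ (k : ℕ)) < v (β ^ n) := by
      apply v.map_sum_lt (by rw [map_pow]; exact pow_ne_zero _ hβ0)
      intro k _
      rw [map_mul, map_pow, map_pow]
      have h1 : v (c k) * v β ^ (k : ℕ) ≤ g * v β ^ (k : ℕ) := mul_le_mul_left (hc k) _
      have h2 : g * v β ^ (k : ℕ) < 1 * v β ^ (k : ℕ) :=
        mul_lt_mul_of_pos_right hc0 (pow_pos (zero_lt_iff.mpr hβ0) _)
      rw [one_mul] at h2
      exact (h1.trans_lt h2).trans_le (pow_le_pow_right₀ hge k.isLt.le)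
    have := v.map_add_eq_of_lt_left hlt
    rw [hroot, map_zero, map_pow] at this
    exact pow_ne_zero _ hβ0 this.symm
  -- Step 2: the sum has valuation `g`
  have hsum : v (∑ k : Fin n, c k * β ^ (k : ℕ)) = g := by
    have := v.map_sum_eq_of_lt (f := fun k : Fin n => c k * β ^ (k : ℕ))
      (mem_univ (⟨0, hn⟩ : Fin n)) (by
        intro i hi
        have hne : i ≠ ⟨0, hn⟩ := by simpa using hi
        have hi0 : (i : ℕ) ≠ 0 := fun h => hne (Fin.ext h)
        show v (c i * β ^ (i : ℕ)) < v (c ⟨0, hn⟩ * β ^ ((⟨0, hn⟩ : Fin n) : ℕ))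
        rw [map_mul, map_mul, map_pow, map_pow]
        simp only [pow_zero, mul_one]
        have h1 : v (c i) * v β ^ (i : ℕ) ≤ g * v β ^ (i : ℕ) := mul_le_mul_left (hc i) _
        have h2 : g * v β ^ (i : ℕ) < g * 1 :=
          mul_lt_mul_of_pos_left (pow_lt_one₀ zero_le hβ1 hi0) hgpos
        rw [mul_one] at h2
        exact h1.trans_lt h2)
    rw [this]
    simp [hg]
  have e : β ^ n = -∑ k : Fin n, c k * β ^ (k : ℕ) := eq_neg_of_add_eq_zero_left hroot
  rw [← map_pow, e, v.map_neg, hsum]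

end Val

/-! ### `S = ⊕_{k<n} R α^k` is `R[X]/(P)` -/

section PowerBasis

variable {R S : Type*} [CommRing R] [Ring S] [Algebra R S]

/-- the power basis `1, α, …, α^(n-1)` of `S` over `R`, from existence and uniqueness of coordinates -/
noncomputable def powerBasisOfCoord (n : ℕ) (α : S)
    (hspan : ∀ x : S, ∃ a : Fin n → R, x = ∑ k : Fin n, a k • α ^ (k : ℕ))
    (hli : ∀ a : Fin n → R, ∑ k : Fin n, a k • α ^ (k : ℕ) = 0 → ∀ k, a k = 0) : PowerBasis R S where
  gen := α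
  dim := n
  basis := Module.Basis.mk (v := fun k : Fin n => α ^ (k : ℕ)) (Fintype.linearIndependent_iff.mpr hli)
    (by
      intro x _
      obtain ⟨a, rfl⟩ := hspan x
      exact Submodule.sum_mem _ fun k _ =>
        Submodule.smul_mem _ _ (Submodule.subset_span ⟨k, rfl⟩))
  basis_eq_pow := fun k => by simp

@[simp] theorem powerBasisOfCoord_gen (n : ℕ) (α : S)
    (hspan : ∀ x : S, ∃ a : Fin n → R, x = ∑ k : Fin n, a k • α ^ (k : ℕ))
    (hli : ∀ a : Fin n → R, ∑ k : Fin n, a k • α ^ (k : ℕ) = 0 → ∀ k, a k = 0) :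
    (powerBasisOfCoord n α hspan hli).gen = α := rfl

@[simp] theorem powerBasisOfCoord_dim (n : ℕ) (α : S)
    (hspan : ∀ x : S, ∃ a : Fin n → R, x = ∑ k : Fin n, a k • α ^ (k : ℕ))
    (hli : ∀ a : Fin n → R, ∑ k : Fin n, a k • α ^ (k : ℕ) = 0 → ∀ k, a k = 0) :
    (powerBasisOfCoord n α hspan hli).dim = n := rfl

/-- a monic polynomial of degree `n` killing `α` is the minimal polynomial of `α` -/
theorem minpoly_eq_of_coord [Nontrivial R] (n : ℕ) (α : S)
    (hspan : ∀ x : S, ∃ a : Fin n → R, x = ∑ k : Fin n, a k • α ^ (k : ℕ))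
    (hli : ∀ a : Fin n → R, ∑ k : Fin n, a k • α ^ (k : ℕ) = 0 → ∀ k, a k = 0)
    (P : R[X]) (hP : P.Monic) (hdeg : P.natDegree = n) (hroot : aeval α P = 0) :
    minpoly R α = P := by
  set pb := powerBasisOfCoord n α hspan hli with hpb
  have hint : IsIntegral R α := ⟨P, hP, hroot⟩
  have hm : (minpoly R α).Monic := minpoly.monic hint
  have hmd : (minpoly R α).natDegree = n := pb.natDegree_minpoly
  by_contra hne
  have hQ : minpoly R α - P ≠ 0 := sub_ne_zero.mpr hne
  have hQroot : aeval pb.gen (minpoly R α - P) = 0 := by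
    show aeval α (minpoly R α - P) = 0
    rw [map_sub, minpoly.aeval, hroot, sub_zero]
  have h1 := pb.dim_le_natDegree_of_root hQ hQroot
  have hdeg' : (minpoly R α).degree = P.degree := by
    rw [degree_eq_natDegree hm.ne_zero, degree_eq_natDegree hP.ne_zero, hmd, hdeg]
  have h2 : (minpoly R α - P).degree < (minpoly R α).degree :=
    degree_sub_lt_left hdeg' hm.ne_zero (by rw [hm.leadingCoeff, hP.leadingCoeff])
  have h3 : (minpoly R α - P).natDegree < n := by
    rw [← hmd]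
    exact natDegree_lt_natDegree hQ h2
  have h4 : pb.dim = n := rfl
  omega

/-- **`S = R[X]/(P)`**: every root `y` of `P` in an `R`-algebra `S'` defines an `R`-algebra map
`S → S'`, `α ↦ y`. -/
theorem exists_algHom_of_root [Nontrivial R] {S' : Type*} [Ring S'] [Algebra R S'] (n : ℕ) (α : S)
    (hspan : ∀ x : S, ∃ a : Fin n → R, x = ∑ k : Fin n, a k • α ^ (k : ℕ))
    (hli : ∀ a : Fin n → R, ∑ k : Fin n, a k • α ^ (k : ℕ) = 0 → ∀ k, a k = 0)
    (P : R[X]) (hP : P.Monic) (hdeg : P.natDegree = n) (hroot : aeval α P = 0)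
    (y : S') (hy : aeval y P = 0) : ∃ φ : S →ₐ[R] S', φ α = y := by
  have hmin := minpoly_eq_of_coord n α hspan hli P hP hdeg hroot
  set pb := powerBasisOfCoord n α hspan hli with hpb
  have hy' : aeval y (minpoly R pb.gen) = 0 := by
    show aeval y (minpoly R α) = 0
    rw [hmin, hy]
  exact ⟨pb.lift y hy', pb.lift_gen y hy'⟩

end PowerBasis

end Fermat.Agent.GP.Ram.Monogenic
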