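/-
GATE-P (S56 long shot) / [P-FLAT] (iv), addendum to `GP/Ram/Monogenic.lean` (helper87):
the hypotheses `hgap`, `huni` of `Monogenic.exists_coord_integral` from the "unramified base" condition
`(U)`: every nonzero `x ∈ K` has `v x = v ϖ ^ m` (`m : ℤ`), together with `v α ^ n = v ϖ < 1`.

* `hgap_of_U`, `huni_of_U` : the two hypotheses;
* `exists_coord_integral_of_U` : `[L : K] = n`, `v x ≤ 1` ⟹ `x = ∑_{k<n} a_k α^k`, `a_k ∈ K`, `v a_k ≤ 1`;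
* `mem_adjoin_of_U` : subring form, `O₀ = {x ∈ K : v x ≤ 1}` (as a subring of `L`), `x ∈ L` integral ⟹
  `x ∈ Algebra.adjoin O₀ {α}` — i.e. `O_L = O₀[α]`.
Mathlib + `GP/Ram/Monogenic.lean`.
-/
import Fermat.Agent.GP.Ram.Monogenic

set_option autoImplicit false

namespace Fermat.Agent.GP.Ram.MonogenicU

open Finset Polynomial Fermat.Agent.GP.Ram.Monogenic

variable {K L : Type*} [Field K] [Field L] [Algebra K L]
  {Γ₀ : Type*} [LinearOrderedCommGroupWithZero Γ₀] (v : Valuation L Γ₀)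

section

variable {n : ℕ} {α ϖ : L}

/-- `v α` is positive and `< 1` -/
theorem val_pos_lt_one (hn : 0 < n) (hα : v α ^ n = v ϖ) (hϖ0 : ϖ ≠ 0) (hϖ1 : v ϖ < 1) :
    0 < v α ∧ v α < 1 := by
  have h0 : v α ≠ 0 := by
    intro h
    rw [h, zero_pow hn.ne'] at hα
    exact (v.ne_zero_iff.mpr hϖ0) hα.symm
  refine ⟨zero_lt_iff.mpr h0, ?_⟩
  by_contra h
  rw [not_lt] at h
  have := one_le_pow₀ (n := n) h
  rw [hα] at this
  exact absurd hϖ1 (not_lt.mpr this)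

/-- `(U)` ⟹ `hgap` -/
theorem hgap_of_U (hn : 0 < n) (hα : v α ^ n = v ϖ) (hϖ0 : ϖ ≠ 0) (hϖ1 : v ϖ < 1)
    (hU : ∀ x : K, x ≠ 0 → ∃ m : ℤ, v (algebraMap K L x) = v ϖ ^ m) :
    ∀ d : ℕ, 0 < d → d < n → ∀ x : K, v (algebraMap K L x) ≠ v α ^ d := by
  obtain ⟨hpos, hlt⟩ := val_pos_lt_one v hn hα hϖ0 hϖ1
  intro d hd0 hdn x hx
  have hx0 : x ≠ 0 := by
    rintro rfl
    rw [map_zero, map_zero] at hx
    exact (pow_ne_zero d hpos.ne') hx.symm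
  obtain ⟨m, hm⟩ := hU x hx0
  rw [hm, ← hα, ← zpow_natCast (v α) n, ← zpow_mul, ← zpow_natCast (v α) d] at hx
  have hinj : (n : ℤ) * m = (d : ℤ) := by
    have hsa : StrictAnti fun k : ℤ => v α ^ k := zpow_right_strictAnti₀ hpos hlt
    exact hsa.injective hx
  -- `n ∣ d` with `0 < d < n`
  have hdvd : (n : ℤ) ∣ (d : ℤ) := ⟨m, hinj.symm⟩
  have := Int.le_of_dvd (by exact_mod_cast hd0) hdvd
  omega

/-- `(U)` ⟹ `huni` -/
theorem huni_of_U (hα : v α ^ n = v ϖ) (hϖ0 : ϖ ≠ 0) (hϖ1 : v ϖ < 1)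
    (hU : ∀ x : K, x ≠ 0 → ∃ m : ℤ, v (algebraMap K L x) = v ϖ ^ m) :
    ∀ x : K, 1 < v (algebraMap K L x) → (v α ^ n)⁻¹ ≤ v (algebraMap K L x) := by
  intro x hx
  have hϖpos : 0 < v ϖ := zero_lt_iff.mpr (v.ne_zero_iff.mpr hϖ0)
  have hx0 : x ≠ 0 := by
    rintro rfl
    rw [map_zero, map_zero] at hx
    exact absurd hx (not_lt.mpr zero_le)
  obtain ⟨m, hm⟩ := hU x hx0
  rw [hm] at hx ⊢
  rw [hα]
  have hsa : StrictAnti fun k : ℤ => v ϖ ^ k := zpow_right_strictAnti₀ hϖpos hϖ1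
  -- `1 = ϖ^0 < ϖ^m` ⟹ `m < 0` ⟹ `m ≤ -1` ⟹ `ϖ^(-1) ≤ ϖ^m`
  have hm0 : m < 0 := by
    have : v ϖ ^ (0 : ℤ) < v ϖ ^ m := by rwa [zpow_zero]
    exact hsa.lt_iff_gt.mp this
  have : v ϖ ^ (-1 : ℤ) ≤ v ϖ ^ m := hsa.antitone (by omega)
  rwa [zpow_neg_one] at this

/-- **`O_L = ∑ O_K α^k` from `(U)`** -/
theorem exists_coord_integral_of_U (hn : 0 < n) (hα : v α ^ n = v ϖ) (hϖ0 : ϖ ≠ 0)
    (hϖ1 : v ϖ < 1) (hU : ∀ x : K, x ≠ 0 → ∃ m : ℤ, v (algebraMap K L x) = v ϖ ^ m)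
    (hdeg : Module.finrank K L = n) (x : L) (hx : v x ≤ 1) :
    ∃ a : Fin n → K, (∀ k, v (algebraMap K L (a k)) ≤ 1) ∧
      x = ∑ k : Fin n, algebraMap K L (a k) * α ^ (k : ℕ) := by
  obtain ⟨hpos, hlt⟩ := val_pos_lt_one v hn hα hϖ0 hϖ1
  exact exists_coord_integral v hn (v.ne_zero_iff.mp hpos.ne') hlt
    (hgap_of_U v hn hα hϖ0 hϖ1 hU) (huni_of_U v hα hϖ0 hϖ1 hU) hdeg x hx

/-- **`O_L = O₀[α]`, subring form**: `O₀ : Subring L` containing every `algebraMap K L a` with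
`v a ≤ 1`.  Every `x ∈ L` with `v x ≤ 1` lies in `Algebra.adjoin O₀ {α}`. -/
theorem mem_adjoin_of_U (hn : 0 < n) (hα : v α ^ n = v ϖ) (hϖ0 : ϖ ≠ 0)
    (hϖ1 : v ϖ < 1) (hU : ∀ x : K, x ≠ 0 → ∃ m : ℤ, v (algebraMap K L x) = v ϖ ^ m)
    (hdeg : Module.finrank K L = n) (O₀ : Subring L)
    (hO₀ : ∀ a : K, v (algebraMap K L a) ≤ 1 → algebraMap K L a ∈ O₀)
    (x : L) (hx : v x ≤ 1) : x ∈ Algebra.adjoin O₀ {α} := by
  obtain ⟨a, ha, rfl⟩ := exists_coord_integral_of_U v hn hα hϖ0 hϖ1 hU hdeg x hx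
  refine Subalgebra.sum_mem _ fun k _ => ?_
  have hα' : α ∈ Algebra.adjoin O₀ {α} := Algebra.subset_adjoin rfl
  have hk : algebraMap K L (a k) ∈ Algebra.adjoin O₀ {α} := by
    set r : O₀ := ⟨algebraMap K L (a k), hO₀ _ (ha k)⟩ with hr
    have h1 := Subalgebra.algebraMap_mem (Algebra.adjoin O₀ {α}) r
    have h2 : algebraMap O₀ L r = algebraMap K L (a k) := rfl
    rwa [h2] at h1
  exact Subalgebra.mul_mem _ hk (Subalgebra.pow_mem _ hα' _)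

end

end Fermat.Agent.GP.Ram.MonogenicU
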