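/-
GATE-P (S56 long shot) / [P-FLAT] (iv), (helper87): **`O^H = O₀[y]`** — the monogenic lemma for the fixed
field of a SUBGROUP.

`G` a finite group acting faithfully on a field `L`, `v : Valuation L Γ₀`, `H ≤ G`, `|G| = m |H|`.
`ϖ ∈ L^G` with `v ϖ < 1` such that every nonzero `G`-fixed element has valuation `v ϖ ^ k` (`k : ℤ`)
(`L^G` is "unramified over the base", `(U)`), and `y ∈ L^H` with `v y ^ m = v ϖ`
(`y` a uniformiser of `L^H`, which is totally ramified of degree `m` over `L^G`).
Then every `H`-fixed `x` with `v x ≤ 1` is `∑_{k<m} a_k y^k` with `a_k` `G`-fixed, `v a_k ≤ 1`.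

* `finrank_fixed_sub` : `[L^H : L^G] = m` (Artin twice + tower law);
* `exists_coord_fixed` : the coordinate statement.
Mathlib + `GP/Ram/MonogenicU.lean`.
-/
import Fermat.Agent.GP.Ram.MonogenicU

set_option autoImplicit false

namespace Fermat.Agent.GP.Ram.MonogenicSub

open Module Fermat.Agent.GP.Ram.MonogenicU

variable {G L : Type*} [Group G] [Field L] [MulSemiringAction G L]

theorem fixed_le (H : Subgroup G) : FixedPoints.subfield G L ≤ FixedPoints.subfield H L :=
  fun _ hx h => hx h.1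

/-- `L^G → L^H` as an algebra (a local instance of this file only) -/
@[reducible] noncomputable def algFixed (H : Subgroup G) :
    Algebra (FixedPoints.subfield G L) (FixedPoints.subfield H L) :=
  (Subfield.inclusion (fixed_le H)).toAlgebra

attribute [local instance] algFixed

theorem isScalarTower_fixed (H : Subgroup G) :
    IsScalarTower (FixedPoints.subfield G L) (FixedPoints.subfield H L) L :=
  IsScalarTower.of_algebraMap_eq (fun _ => rfl)

attribute [local instance] isScalarTower_fixed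

/-- **`[L^H : L^G] = m`** when `|G| = m |H|` -/
theorem finrank_fixed_sub [Finite G] [FaithfulSMul G L] (H : Subgroup G) (m : ℕ)
    (hm : Nat.card G = m * Nat.card H) :
    finrank (FixedPoints.subfield G L) (FixedPoints.subfield H L) = m := by
  cases nonempty_fintype G
  have : Fintype H := Fintype.ofFinite _
  have h1 : finrank (FixedPoints.subfield G L) L = Nat.card G := by
    rw [FixedPoints.finrank_eq_card, Nat.card_eq_fintype_card]
  have h2 : finrank (FixedPoints.subfield H L) L = Nat.card H := by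
    rw [FixedPoints.finrank_eq_card, Nat.card_eq_fintype_card]
  have h3 := finrank_mul_finrank (FixedPoints.subfield G L) (FixedPoints.subfield H L) L
  rw [h1, h2, hm] at h3
  have hH : 0 < Nat.card H := Nat.card_pos
  exact Nat.eq_of_mul_eq_mul_right hH h3

/-- **`O^H = ∑ O₀ y^k`** -/
theorem exists_coord_fixed [Finite G] [FaithfulSMul G L]
    {Γ₀ : Type*} [LinearOrderedCommGroupWithZero Γ₀] (v : Valuation L Γ₀)
    (H : Subgroup G) (m : ℕ) (hm0 : 0 < m) (hm : Nat.card G = m * Nat.card H)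
    {y ϖ : L} (hyH : ∀ h ∈ H, h • y = y) (hϖG : ∀ g : G, g • ϖ = ϖ)
    (hy : v y ^ m = v ϖ) (hϖ0 : ϖ ≠ 0) (hϖ1 : v ϖ < 1)
    (hU : ∀ x : L, (∀ g : G, g • x = x) → x ≠ 0 → ∃ k : ℤ, v x = v ϖ ^ k)
    (x : L) (hxH : ∀ h ∈ H, h • x = x) (hx : v x ≤ 1) :
    ∃ a : Fin m → L, (∀ k, ∀ g : G, g • a k = a k) ∧ (∀ k, v (a k) ≤ 1) ∧
      x = ∑ k : Fin m, a k * y ^ (k : ℕ) := by
  let y' : FixedPoints.subfield H L := ⟨y, fun h => hyH h.1 h.2⟩
  let ϖ' : FixedPoints.subfield H L := ⟨ϖ, fun h => hϖG h.1⟩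
  let x' : FixedPoints.subfield H L := ⟨x, fun h => hxH h.1 h.2⟩
  have hϖ'0 : ϖ' ≠ 0 := fun h => hϖ0 (congrArg Subtype.val h)
  have hU' : ∀ z : FixedPoints.subfield G L, z ≠ 0 → ∃ k : ℤ, v (z : L) = v ϖ ^ k := by
    intro z hz
    exact hU (z : L) (fun g => z.2 g) (fun h => hz (Subtype.ext h))
  obtain ⟨a, ha1, ha2⟩ := exists_coord_integral_of_U
    (K := FixedPoints.subfield G L) (L := FixedPoints.subfield H L)
    (v.comap (FixedPoints.subfield H L).subtype) (n := m) (α := y') (ϖ := ϖ') hm0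
    hy hϖ'0 hϖ1 hU' (finrank_fixed_sub (L := L) H m hm) x' hx
  refine ⟨fun k => ((a k : FixedPoints.subfield G L) : L), fun k g => (a k).2 g,
    fun k => ha1 k, ?_⟩
  have := congrArg (Subtype.val : FixedPoints.subfield H L → L) ha2
  rw [show x = (x' : L) from rfl, this]
  simp only [AddSubmonoidClass.coe_finsetSum, MulMemClass.coe_mul, SubmonoidClass.coe_pow]
  rfl

end Fermat.Agent.GP.Ram.MonogenicSub
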