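/-
GATE-P / S56 [P-FLAT] leaf R3 (helper77): Serre, *Local Fields* IV §1 Prop. 3, in an abstract
algebraic form (Mathlib only, no valuations, no local fields).

Setting: `B` a commutative ring (think `O_L`), a group `G` acting on `B` by ring automorphisms and
trivially on the image of `A` (think `O_K`), `H ≤ G` a finite subgroup, `x y : B` with
* `y ∈ A[x]`                                 (`hxy : ∃ g : A[X], aeval x g = y`),
* `y` fixed by `H`                           (`hy`),
* every `H`-fixed element of `B` lies in `A[y]`   (`hC`).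

Then for every `σ : G` the elements `σ • y - y` and `∏_{t ∈ H} (x - (σ t) • x)` divide each other
(the second divisibility needs `B` a domain and `t ↦ t • x` injective on `H`).  For a valuation `v`
with `v ≤ 1` on `B` this is `v (σ y - y) = ∏_{t ∈ H} v (x - σ t x)`, i.e. (additively)
`i_{G/H}(σ̄) = ∑_{s ↦ σ̄} i_G(s)` in the absolute normalisation.
-/
import Mathlib

set_option autoImplicit false

namespace Fermat.Agent.GP.Ram.CosetSum

open Polynomial

variable {A B G : Type*} [CommRing A] [CommRing B] [Algebra A B] [Group G]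
  [MulSemiringAction G B]

/-- the polynomial `∏_{t ∈ H} (X - (σ t) • x)`; for `σ = 1` this is the "minimal polynomial of `x`
over the `H`-fixed ring". -/
noncomputable def cosetPoly (H : Subgroup G) [Fintype H] (σ : G) (x : B) : B[X] :=
  ∏ t : H, (X - C ((σ * (t : G)) • x))

theorem smul_cosetPoly (H : Subgroup G) [Fintype H] (τ σ : G) (x : B) :
    τ • cosetPoly H σ x = cosetPoly H (τ * σ) x := by
  unfold cosetPoly
  rw [Finset.smul_prod']
  refine Finset.prod_congr rfl fun t _ => ?_
  rw [smul_sub, smul_X, smul_C, smul_smul, mul_assoc]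

/-- `H` permutes the factors of `cosetPoly H 1 x`. -/
theorem smul_cosetPoly_one_of_mem (H : Subgroup G) [Fintype H] {τ : G} (hτ : τ ∈ H) (x : B) :
    τ • cosetPoly H 1 x = cosetPoly H 1 x := by
  rw [smul_cosetPoly, mul_one]
  unfold cosetPoly
  refine Fintype.prod_equiv (Equiv.mulLeft (⟨τ, hτ⟩ : H)) _ _ fun t => ?_
  simp

theorem coeff_smul' (τ : G) (p : B[X]) (n : ℕ) : (τ • p).coeff n = τ • p.coeff n := by
  rw [smul_eq_map, coeff_map]
  rfl

theorem eval_cosetPoly (H : Subgroup G) [Fintype H] (σ : G) (x z : B) :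
    (cosetPoly H σ x).eval z = ∏ t : H, (z - (σ * (t : G)) • x) := by
  unfold cosetPoly
  rw [eval_prod]
  refine Finset.prod_congr rfl fun t _ => ?_
  rw [eval_sub, eval_X, eval_C]

theorem eval_cosetPoly_one_self (H : Subgroup G) [Fintype H] (x : B) :
    (cosetPoly H 1 x).eval x = 0 := by
  rw [eval_cosetPoly]
  refine Finset.prod_eq_zero (Finset.mem_univ (1 : H)) ?_
  simp

section Fixed

variable (hGA : ∀ (g : G) (a : A), g • algebraMap A B a = algebraMap A B a)
include hGA

/-- `G` acts `A`-linearly, so it commutes with evaluation of polynomials over `A`. -/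
theorem smul_aeval (g : G) (z : B) (p : A[X]) : g • aeval z p = aeval (g • z) p := by
  induction p using Polynomial.induction_on with
  | C a => simp only [aeval_C]; exact hGA g a
  | add p q hp hq => rw [map_add, smul_add, hp, hq, map_add]
  | monomial n a _ =>
    simp only [map_mul, aeval_C, map_pow, aeval_X, smul_mul', smul_pow', hGA g a]

theorem smul_map_algebraMap (g : G) (p : A[X]) :
    g • p.map (algebraMap A B) = p.map (algebraMap A B) := by
  ext n
  rw [coeff_smul', coeff_map, hGA]

/-- **first divisibility** (no domain hypothesis): `σ y - y ∣ ∏_{t ∈ H} (x - (σ t) x)`. -/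
theorem sub_dvd_prod (H : Subgroup G) [Fintype H] (x y : B)
    (hC : ∀ b : B, (∀ t ∈ H, t • b = b) → ∃ g : A[X], aeval y g = b) (σ : G) :
    σ • y - y ∣ ∏ t : H, (x - (σ * (t : G)) • x) := by
  set f := cosetPoly H 1 x with hf
  -- every coefficient of `σ f - f` is divisible by `σ y - y`
  have hcoeff : ∀ n, σ • y - y ∣ (σ • f - f).coeff n := by
    intro n
    have hfix : ∀ t ∈ H, t • f.coeff n = f.coeff n := by
      intro t ht
      rw [← coeff_smul', hf, smul_cosetPoly_one_of_mem H ht]
    obtain ⟨g, hg⟩ := hC (f.coeff n) hfix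
    rw [coeff_sub, coeff_smul', ← hg, smul_aeval hGA, aeval_def, aeval_def, eval₂_eq_eval_map,
      eval₂_eq_eval_map]
    exact sub_dvd_eval_sub _ _ _
  obtain ⟨q, hq⟩ := (C_dvd_iff_dvd_coeff _ _).2 hcoeff
  have hev : (σ • f - f).eval x = ∏ t : H, (x - (σ * (t : G)) • x) := by
    rw [eval_sub, hf, eval_cosetPoly_one_self, sub_zero, smul_cosetPoly, mul_one, eval_cosetPoly]
  rw [← hev, hq, eval_mul, eval_C]
  exact dvd_mul_right _ _

/-- **second divisibility** (`B` a domain, `t ↦ t • x` injective on `H`):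
`∏_{t ∈ H} (x - (σ t) x) ∣ σ y - y`. -/
theorem prod_dvd_sub [IsDomain B] (H : Subgroup G) [Fintype H] (x y : B)
    (hy : ∀ t ∈ H, t • y = y) (hxy : ∃ g : A[X], aeval x g = y)
    (hinj : ∀ t ∈ H, t • x = x → t = 1) (σ : G) :
    ∏ t : H, (x - (σ * (t : G)) • x) ∣ σ • y - y := by
  classical
  obtain ⟨g, hg⟩ := hxy
  set P : B[X] := g.map (algebraMap A B) - C y with hP
  -- `t • x` is a root of `P` for every `t ∈ H`
  have hroot : ∀ t : H, P.IsRoot ((t : G) • x) := by
    intro t
    rw [IsRoot, hP, eval_sub, eval_C, ← eval₂_eq_eval_map, ← aeval_def, ← smul_aeval hGA, hg,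
      hy _ t.2, sub_self]
  -- hence `cosetPoly H 1 x ∣ P`
  have hdvd : cosetPoly H 1 x ∣ P := by
    by_cases hP0 : P = 0
    · rw [hP0]; exact dvd_zero _
    have hinj' : Function.Injective fun t : H => (t : G) • x := by
      intro t t' htt
      have htt' : (t : G) • x = (t' : G) • x := htt
      have h1 : ((t : G)⁻¹ * (t' : G)) • x = x := by
        rw [mul_smul, ← htt', inv_smul_smul]
      have h2 := hinj _ (H.mul_mem (H.inv_mem t.2) t'.2) h1
      exact Subtype.ext (inv_mul_eq_one.1 h2)
    set s : Multiset B := (Finset.univ : Finset H).val.map (fun t : H => (t : G) • x) with hs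
    have hnodup : s.Nodup := Multiset.Nodup.map hinj' Finset.univ.nodup
    have hle : s ≤ P.roots := by
      rw [Multiset.le_iff_subset hnodup]
      intro b hb
      obtain ⟨t, -, rfl⟩ := Multiset.mem_map.1 hb
      exact (mem_roots hP0).2 (hroot t)
    have := (Multiset.prod_X_sub_C_dvd_iff_le_roots hP0 s).2 hle
    have hprod : (s.map fun a => X - C a).prod = cosetPoly H 1 x := by
      rw [hs, Multiset.map_map]
      unfold cosetPoly
      rw [Finset.prod_eq_multiset_prod]
      congr 1
      refine Multiset.map_congr rfl fun t _ => ?_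
      simp
    rwa [hprod] at this
  obtain ⟨h, hh⟩ := hdvd
  -- apply `σ` coefficientwise and evaluate at `x`
  have h1 : σ • P = g.map (algebraMap A B) - C (σ • y) := by
    rw [hP, smul_sub, smul_map_algebraMap hGA, smul_C]
  have h2 : (σ • P).eval x = y - σ • y := by
    rw [h1, eval_sub, eval_C, ← eval₂_eq_eval_map, ← aeval_def, hg]
  have h3 : (σ • P).eval x = (∏ t : H, (x - (σ * (t : G)) • x)) * (σ • h).eval x := by
    rw [hh, smul_mul', eval_mul, smul_cosetPoly, mul_one, eval_cosetPoly]
  have h4 : σ • y - y = (∏ t : H, (x - (σ * (t : G)) • x)) * (-(σ • h).eval x) := by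
    rw [mul_neg, ← h3, h2]; ring
  rw [h4]
  exact dvd_mul_right _ _

/-- **Serre, Local Fields IV Prop. 3 (algebraic form)**: `σ y - y` and `∏_{t ∈ H} (x - (σ t) x)` are
associated. -/
theorem associated_sub_prod [IsDomain B] (H : Subgroup G) [Fintype H] (x y : B)
    (hy : ∀ t ∈ H, t • y = y) (hxy : ∃ g : A[X], aeval x g = y)
    (hC : ∀ b : B, (∀ t ∈ H, t • b = b) → ∃ g : A[X], aeval y g = b)
    (hinj : ∀ t ∈ H, t • x = x → t = 1) (σ : G) :
    Associated (σ • y - y) (∏ t : H, (x - (σ * (t : G)) • x)) :=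
  associated_of_dvd_dvd (sub_dvd_prod hGA H x y hC σ) (prod_dvd_sub hGA H x y hy hxy hinj σ)

/-- valuation form: if `v ≤ 1` on `B` then `v (σ y - y) = ∏_{t ∈ H} v (x - (σ t) x)`, i.e.
`i_{G/H}(σ̄) = ∑_{s ↦ σ̄} i_G(s)` (absolute normalisation). -/
theorem valuation_sub_eq_prod [IsDomain B] {Γ₀ : Type*} [LinearOrderedCommGroupWithZero Γ₀]
    (v : Valuation B Γ₀) (hv : ∀ b : B, v b ≤ 1) (H : Subgroup G) [Fintype H] (x y : B)
    (hy : ∀ t ∈ H, t • y = y) (hxy : ∃ g : A[X], aeval x g = y)
    (hC : ∀ b : B, (∀ t ∈ H, t • b = b) → ∃ g : A[X], aeval y g = b)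
    (hinj : ∀ t ∈ H, t • x = x → t = 1) (σ : G) :
    v (σ • y - y) = ∏ t : H, v (x - (σ * (t : G)) • x) := by
  rw [← map_prod]
  apply le_antisymm
  · obtain ⟨c, hc⟩ := prod_dvd_sub hGA H x y hy hxy hinj σ
    rw [hc, map_mul]
    exact mul_le_of_le_one_right' (hv c)
  · obtain ⟨c, hc⟩ := sub_dvd_prod hGA H x y hC σ
    rw [hc, map_mul]
    exact mul_le_of_le_one_right' (hv c)

end Fixed

end Fermat.Agent.GP.Ram.CosetSum
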