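/-
GATE-P (S56 long shot) / [P-FLAT] (iv), LEMMA EP (helper42): Eisenstein perturbation.

`L` a field with a valuation `v` whose value group is generated by `ϖ = v π`, `G` a finite group
acting on `L` by `v`-isometries, with TWO-VALUED lower numbering
`v (π - τ π) = ϖ` for `τ ∉ G₁`, `v (π - τ π) = ϖ ^ (1 + t)` for `τ ∈ G₁ \ {1}`.
For every `β` of valuation `ϖ`, `v (∏_σ (β - σ π)) = ϖ ^ N` with
`N = n + q_w (s - 1)` (`1 ≤ s ≤ 1 + t`) or `N > n + q_w t` (`n = |G|`, `q_w = |G₁|`).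
Hence a root `β ∈ L` of the Eisenstein perturbation `P - c X ^ a` (`v c = ϖ ^ n`, `q_w ∤ a`,
`a ≤ q_w t`) cannot exist: Fontaine's property `(P_m)` fails.  No Herbrand function, no upper
numbering, no Krasner.  Mathlib only.
-/
import Mathlib

set_option autoImplicit false

namespace Fermat.Agent.GP.Ram.EisPerturb

open Finset

section Ultrametric

variable {L : Type*} [Field L] {Γ₀ : Type*} [LinearOrderedCommGroupWithZero Γ₀]
  (v : Valuation L Γ₀)
variable {G : Type*} [Group G] [MulSemiringAction G L]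

/-- If `σ₀ π` is a conjugate of `π` closest to `β`, the distance from `β` to any other conjugate
`σ₀ τ π` is `max (dist β (σ₀ π)) (dist π (τ π))`. -/
theorem val_sub_conj_eq_max (hinv : ∀ (σ : G) (x : L), v (σ • x) = v x) (π β : L) (σ₀ : G)
    (hmin : ∀ σ : G, v (β - σ₀ • π) ≤ v (β - σ • π)) (τ : G) :
    v (β - (σ₀ * τ) • π) = max (v (β - σ₀ • π)) (v (π - τ • π)) := by
  have hdec : β - (σ₀ * τ) • π = (β - σ₀ • π) + σ₀ • (π - τ • π) := by
    rw [smul_sub, mul_smul]; ring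
  have hi : v (σ₀ • (π - τ • π)) = v (π - τ • π) := hinv _ _
  rcases eq_or_ne (v (β - σ₀ • π)) (v (π - τ • π)) with heq | hne
  · apply le_antisymm
    · rw [hdec]
      exact (v.map_add _ _).trans (by rw [hi])
    · rw [← heq, max_self]
      exact hmin _
  · rw [hdec, v.map_add_of_distinct_val (by rw [hi]; exact hne), hi]

end Ultrametric

section Count

variable {L : Type*} [Field L] {Γ₀ : Type*} [LinearOrderedCommGroupWithZero Γ₀]
  (v : Valuation L Γ₀)
variable {G : Type*} [Group G] [Fintype G] [MulSemiringAction G L]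

theorem pow_lt_pow_of_lt_one' {ϖ : Γ₀} (h0 : ϖ ≠ 0) (h1 : ϖ < 1) {a b : ℕ} (hab : a < b) :
    ϖ ^ b < ϖ ^ a := by
  obtain ⟨k, rfl⟩ := Nat.exists_eq_add_of_lt hab
  have hpos : 0 < ϖ ^ a := pow_pos (zero_lt_iff.mpr h0) a
  calc ϖ ^ (a + k + 1) = ϖ ^ a * ϖ ^ (k + 1) := by rw [add_assoc, pow_add]
    _ < ϖ ^ a * 1 := by
        apply mul_lt_mul_of_pos_left _ hpos
        exact pow_lt_one₀ zero_le h1 (Nat.succ_ne_zero k)
    _ = ϖ ^ a := mul_one _

theorem pow_injective_of_lt_one {ϖ : Γ₀} (h0 : ϖ ≠ 0) (h1 : ϖ < 1) :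
    Function.Injective (fun k : ℕ => ϖ ^ k) := by
  intro a b hab
  rcases lt_trichotomy a b with h | h | h
  · exact absurd hab (pow_lt_pow_of_lt_one' h0 h1 h).ne'
  · exact h
  · exact absurd hab (pow_lt_pow_of_lt_one' h0 h1 h).ne

theorem max_pow_pow {ϖ : Γ₀} (h0 : ϖ ≠ 0) (h1 : ϖ < 1) (a b : ℕ) :
    max (ϖ ^ a) (ϖ ^ b) = ϖ ^ min a b := by
  rcases le_total a b with h | h
  · rw [min_eq_left h]
    apply max_eq_left
    rcases h.eq_or_lt with rfl | h'
    · exact le_rfl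
    · exact (pow_lt_pow_of_lt_one' h0 h1 h').le
  · rw [min_eq_right h]
    apply max_eq_right
    rcases h.eq_or_lt with rfl | h'
    · exact le_rfl
    · exact (pow_lt_pow_of_lt_one' h0 h1 h').le

end Count

section Main

variable {L : Type*} [Field L] {Γ₀ : Type*} [LinearOrderedCommGroupWithZero Γ₀]
  (v : Valuation L Γ₀)
variable {G : Type*} [Group G] [Fintype G] [MulSemiringAction G L]

/-- The exponent of the `τ`-th factor. -/
noncomputable def expo (G₁ : Subgroup G) (s t : ℕ) (τ : G) : ℕ := by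
  classical
  exact if τ ∈ G₁ then (if τ = 1 then s else min s (1 + t)) else 1

theorem sum_expo (G₁ : Subgroup G) (s t : ℕ) :
    ∑ τ : G, expo G₁ s t τ + Nat.card G₁ =
      s + (Nat.card G₁ - 1) * min s (1 + t) + Fintype.card G := by
  classical
  have hsplit : ∑ τ : G, expo G₁ s t τ =
      ∑ τ ∈ univ.filter (fun τ : G => τ ∈ G₁), expo G₁ s t τ +
        ∑ τ ∈ univ.filter (fun τ : G => ¬ τ ∈ G₁), expo G₁ s t τ :=
    (Finset.sum_filter_add_sum_filter_not univ (fun τ : G => τ ∈ G₁) _).symm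
  have hout : ∑ τ ∈ univ.filter (fun τ : G => ¬ τ ∈ G₁), expo G₁ s t τ =
      (univ.filter (fun τ : G => ¬ τ ∈ G₁)).card := by
    rw [Finset.card_eq_sum_ones]
    apply Finset.sum_congr rfl
    intro τ hτ
    rw [Finset.mem_filter] at hτ
    simp [expo, hτ.2]
  have h1mem : (1 : G) ∈ univ.filter (fun τ : G => τ ∈ G₁) := by
    simp [G₁.one_mem]
  have hin : ∑ τ ∈ univ.filter (fun τ : G => τ ∈ G₁), expo G₁ s t τ =
      s + ((univ.filter (fun τ : G => τ ∈ G₁)).card - 1) * min s (1 + t) := by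
    rw [← Finset.add_sum_erase _ _ h1mem]
    congr 1
    · simp [expo, G₁.one_mem]
    · rw [Finset.sum_congr rfl (g := fun _ => min s (1 + t))]
      · rw [Finset.sum_const, Finset.card_erase_of_mem h1mem, smul_eq_mul]
      · intro τ hτ
        rw [Finset.mem_erase, Finset.mem_filter] at hτ
        simp [expo, hτ.1, hτ.2.2]
  have hcardin : (univ.filter (fun τ : G => τ ∈ G₁)).card = Nat.card G₁ := by
    rw [Nat.card_eq_fintype_card, Fintype.card_subtype]
  have hcards : (univ.filter (fun τ : G => τ ∈ G₁)).card +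
      (univ.filter (fun τ : G => ¬ τ ∈ G₁)).card = Fintype.card G := by
    rw [Finset.card_filter_add_card_filter_not]; rfl
  rw [hsplit, hout, hin, hcardin]
  rw [hcardin] at hcards
  omega

/-- **Value count.**  With a two-valued lower numbering, the valuation of
`∏_σ (β - σ π)` is `ϖ ^ N` with `N + q_w = s + (q_w - 1) min (s, 1 + t) + n`, `s ≥ 1`. -/
theorem val_prod_eq (hinv : ∀ (σ : G) (x : L), v (σ • x) = v x) {ϖ : Γ₀} (h0 : ϖ ≠ 0)
    (h1 : ϖ < 1) (hgen : ∀ x : L, x ≠ 0 → v x < 1 → ∃ k : ℕ, 0 < k ∧ v x = ϖ ^ k)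
    (π : L) (hπ : v π = ϖ) (G₁ : Subgroup G) (t : ℕ)
    (htame : ∀ τ : G, τ ∉ G₁ → v (π - τ • π) = ϖ)
    (hwild : ∀ τ ∈ G₁, τ ≠ 1 → v (π - τ • π) = ϖ ^ (1 + t))
    (β : L) (hβ : v β ≤ ϖ) (hne : ∀ σ : G, β - σ • π ≠ 0) :
    ∃ s N : ℕ, 0 < s ∧ N + Nat.card G₁ = s + (Nat.card G₁ - 1) * min s (1 + t) + Fintype.card G ∧
      v (∏ σ : G, (β - σ • π)) = ϖ ^ N := by
  classical
  obtain ⟨σ₀, -, hσ₀⟩ := Finset.exists_min_image (univ : Finset G) (fun σ => v (β - σ • π))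
    ⟨1, Finset.mem_univ _⟩
  have hmin : ∀ σ : G, v (β - σ₀ • π) ≤ v (β - σ • π) := fun σ => hσ₀ σ (Finset.mem_univ _)
  have hlt : v (β - σ₀ • π) < 1 := by
    refine lt_of_le_of_lt (v.map_sub _ _) (max_lt (hβ.trans_lt h1) ?_)
    rw [hinv, hπ]; exact h1
  obtain ⟨s, hs0, hs⟩ := hgen _ (hne σ₀) hlt
  refine ⟨s, ∑ τ : G, expo G₁ s t τ, hs0, sum_expo G₁ s t, ?_⟩
  have hre : ∏ σ : G, (β - σ • π) = ∏ τ : G, (β - (σ₀ * τ) • π) :=
    (Fintype.prod_equiv (Equiv.mulLeft σ₀) _ _ (fun τ => rfl)).symm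
  rw [hre, map_prod, ← Finset.prod_pow_eq_pow_sum]
  apply Finset.prod_congr rfl
  intro τ _
  rw [val_sub_conj_eq_max v hinv π β σ₀ hmin τ, hs]
  by_cases hτ : τ ∈ G₁
  · by_cases hτ1 : τ = 1
    · subst hτ1
      simp [expo, G₁.one_mem]
    · rw [hwild τ hτ hτ1, max_pow_pow h0 h1]
      simp [expo, hτ, hτ1]
  · rw [htame τ hτ]
    have : max (ϖ ^ s) ϖ = ϖ ^ min s 1 := by
      have h := max_pow_pow h0 h1 s 1
      rwa [pow_one] at h
    rw [this, min_eq_right hs0]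
    simp [expo, hτ]

/-- **Lemma EP.**  No `β` of valuation `≤ ϖ` satisfies `∏_σ (β - σ π) = c β ^ a` when
`v c = ϖ ^ n`, `v β = ϖ`, `q_w ∤ a` and `a ≤ q_w t`. -/
theorem not_perturbation_root (hinv : ∀ (σ : G) (x : L), v (σ • x) = v x) {ϖ : Γ₀} (h0 : ϖ ≠ 0)
    (h1 : ϖ < 1) (hgen : ∀ x : L, x ≠ 0 → v x < 1 → ∃ k : ℕ, 0 < k ∧ v x = ϖ ^ k)
    (π : L) (hπ : v π = ϖ) (G₁ : Subgroup G) (t : ℕ)
    (htame : ∀ τ : G, τ ∉ G₁ → v (π - τ • π) = ϖ)
    (hwild : ∀ τ ∈ G₁, τ ≠ 1 → v (π - τ • π) = ϖ ^ (1 + t))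
    (a : ℕ) (ha : ¬ Nat.card G₁ ∣ a) (hat : a ≤ Nat.card G₁ * t)
    (c : L) (hc : v c = ϖ ^ Fintype.card G) (β : L) (hβ : v β = ϖ)
    (hroot : ∏ σ : G, (β - σ • π) = c * β ^ a) : False := by
  classical
  have hrhs : v (c * β ^ a) = ϖ ^ (Fintype.card G + a) := by
    rw [map_mul, map_pow, hc, hβ, pow_add]
  have hrhs0 : c * β ^ a ≠ 0 := by
    intro h
    rw [h, map_zero] at hrhs
    exact pow_ne_zero _ h0 hrhs.symm
  have hne : ∀ σ : G, β - σ • π ≠ 0 := by
    intro σ hσ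
    apply hrhs0
    rw [← hroot]
    exact Finset.prod_eq_zero (Finset.mem_univ σ) hσ
  obtain ⟨s, N, hs0, hN, hval⟩ :=
    val_prod_eq v hinv h0 h1 hgen π hπ G₁ t htame hwild β hβ.le hne
  rw [hroot, hrhs] at hval
  have hNeq : Fintype.card G + a = N := pow_injective_of_lt_one h0 h1 hval
  have hq : 0 < Nat.card G₁ := Nat.card_pos
  obtain ⟨q', hq'⟩ : ∃ q', Nat.card G₁ = q' + 1 := ⟨Nat.card G₁ - 1, by omega⟩
  rw [hq'] at hN ha hat
  rw [Nat.add_sub_cancel] at hN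
  rcases le_or_gt s (1 + t) with hst | hst
  · rw [min_eq_left hst] at hN
    apply ha
    refine ⟨s - 1, ?_⟩
    obtain ⟨s', rfl⟩ : ∃ s', s = s' + 1 := ⟨s - 1, by omega⟩
    rw [Nat.add_sub_cancel]
    have e1 : q' * (s' + 1) = q' * s' + q' := by ring
    have e2 : (q' + 1) * s' = q' * s' + s' := by ring
    rw [e1] at hN
    rw [e2]
    omega
  · rw [min_eq_right hst.le] at hN
    have e1 : q' * (1 + t) = q' + q' * t := by ring
    have e2 : (q' + 1) * t = q' * t + t := by ring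
    rw [e1] at hN
    rw [e2] at hat
    omega

end Main

section Wrapper

variable {L : Type*} [Field L] {Γ₀ : Type*} [LinearOrderedCommGroupWithZero Γ₀]
  (v : Valuation L Γ₀)
variable {G : Type*} [Group G] [Fintype G] [MulSemiringAction G L]

/-- A solution `β` of `∏_σ (β - σ π) = c β ^ a` with `v c = ϖ ^ n`, `0 < a < n` is automatically a
uniformiser: `v β = ϖ`. -/
theorem val_root_eq (hinv : ∀ (σ : G) (x : L), v (σ • x) = v x) {ϖ : Γ₀} (h0 : ϖ ≠ 0)
    (h1 : ϖ < 1) (hgen : ∀ x : L, x ≠ 0 → v x < 1 → ∃ k : ℕ, 0 < k ∧ v x = ϖ ^ k)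
    (π : L) (hπ : v π = ϖ) (a : ℕ) (ha0 : 0 < a) (han : a < Fintype.card G)
    (c : L) (hc : v c = ϖ ^ Fintype.card G) (β : L)
    (hroot : ∏ σ : G, (β - σ • π) = c * β ^ a) : v β = ϖ := by
  classical
  have hσπ : ∀ σ : G, v (σ • π) = ϖ := fun σ => by rw [hinv, hπ]
  have hβ0 : β ≠ 0 := by
    rintro rfl
    rw [zero_pow ha0.ne', mul_zero] at hroot
    obtain ⟨σ, -, hσ⟩ := Finset.prod_eq_zero_iff.mp hroot
    rw [zero_sub, neg_eq_zero] at hσ
    have := hσπ σ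
    rw [hσ, map_zero] at this
    exact h0 this.symm
  have hvβ0 : v β ≠ 0 := (v.ne_zero_iff).mpr hβ0
  have hval := congrArg v hroot
  rw [map_prod, map_mul, map_pow, hc] at hval
  rcases lt_trichotomy (v β) ϖ with hlt | heq | hgt
  · exfalso
    have hfac : ∀ σ : G, v (β - σ • π) = ϖ := fun σ => by
      rw [Valuation.map_sub_eq_of_lt_right]
      · exact hσπ σ
      · rw [hσπ]; exact hlt
    rw [Finset.prod_congr rfl (fun σ _ => hfac σ), Finset.prod_const, Finset.card_univ] at hval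
    have hpow : ϖ ^ Fintype.card G ≠ 0 := pow_ne_zero _ h0
    have h1' : (v β) ^ a = 1 := by
      have := hval.symm
      rwa [mul_right_eq_self₀, or_iff_left hpow] at this
    have : (v β) ^ a < 1 := pow_lt_one₀ zero_le (hlt.trans h1) ha0.ne'
    exact this.ne h1'
  · exact heq
  · exfalso
    have hfac : ∀ σ : G, v (β - σ • π) = v β := fun σ => by
      rw [Valuation.map_sub_eq_of_lt_left]
      rw [hσπ]; exact hgt
    rw [Finset.prod_congr rfl (fun σ _ => hfac σ), Finset.prod_const, Finset.card_univ] at hval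
    obtain ⟨d, hd⟩ : ∃ d, Fintype.card G = a + d := ⟨Fintype.card G - a, by omega⟩
    have hd0 : 0 < d := by omega
    have hd' : (v β) ^ d = ϖ ^ Fintype.card G := by
      have h2 : (v β) ^ a * (v β) ^ d = (v β) ^ a * ϖ ^ Fintype.card G := by
        rw [← pow_add, ← hd, hval, mul_comm]
      exact mul_left_cancel₀ (pow_ne_zero _ hvβ0) h2
    have hn0 : Fintype.card G ≠ 0 := by omega
    rcases le_or_gt 1 (v β) with hge | hlt1
    · have : (1 : Γ₀) ≤ (v β) ^ d := one_le_pow₀ hge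
      rw [hd'] at this
      exact absurd (pow_lt_one₀ zero_le h1 hn0) (not_lt.mpr this)
    · obtain ⟨k, hk0, hk⟩ := hgen β hβ0 hlt1
      have : v β ≤ ϖ := by
        rw [hk]
        rcases (Nat.succ_le_of_lt hk0).eq_or_lt with h | h
        · rw [← h, pow_one]
        · have := pow_lt_pow_of_lt_one' h0 h1 h
          rw [pow_one] at this
          exact this.le
      exact absurd hgt (not_lt.mpr this)

/-- **Lemma EP, final form.**  `L / K₀` with `P₀ ∈ K₀[X]` splitting in `L` as `∏_σ (X - σ π)`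
(the minimal polynomial of a uniformiser of a totally ramified Galois extension), two-valued
lower numbering.  Then the Eisenstein perturbation `P₀ - p₀ X ^ a` (`v p₀ = ϖ ^ n`, `a < n`,
`q_w ∤ a`, `a ≤ q_w t`) has NO root in `L`.  (Fontaine's `(P_m)` would produce one as soon as
`1 + a / n > m`.) -/
theorem not_aeval_perturbation_root {K₀ : Type*} [Field K₀] [Algebra K₀ L]
    (hinv : ∀ (σ : G) (x : L), v (σ • x) = v x) {ϖ : Γ₀} (h0 : ϖ ≠ 0)
    (h1 : ϖ < 1) (hgen : ∀ x : L, x ≠ 0 → v x < 1 → ∃ k : ℕ, 0 < k ∧ v x = ϖ ^ k)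
    (π : L) (hπ : v π = ϖ) (G₁ : Subgroup G) (t : ℕ)
    (htame : ∀ τ : G, τ ∉ G₁ → v (π - τ • π) = ϖ)
    (hwild : ∀ τ ∈ G₁, τ ≠ 1 → v (π - τ • π) = ϖ ^ (1 + t))
    (P₀ : Polynomial K₀)
    (hP₀ : P₀.map (algebraMap K₀ L) = ∏ σ : G, (Polynomial.X - Polynomial.C (σ • π)))
    (p₀ : K₀) (hp₀ : v (algebraMap K₀ L p₀) = ϖ ^ Fintype.card G)
    (a : ℕ) (han : a < Fintype.card G) (ha : ¬ Nat.card G₁ ∣ a) (hat : a ≤ Nat.card G₁ * t)
    (β : L) (hβ : Polynomial.aeval β (P₀ - Polynomial.C p₀ * Polynomial.X ^ a) = 0) : False := by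
  classical
  have ha0 : 0 < a := by
    rcases Nat.eq_zero_or_pos a with rfl | h
    · exact absurd (dvd_zero _) ha
    · exact h
  have hroot : ∏ σ : G, (β - σ • π) = algebraMap K₀ L p₀ * β ^ a := by
    have h1' : Polynomial.aeval β P₀ = ∏ σ : G, (β - σ • π) := by
      rw [Polynomial.aeval_def, ← Polynomial.eval_map, hP₀, Polynomial.eval_prod]
      simp
    rw [map_sub, sub_eq_zero, h1'] at hβ
    rw [hβ]
    simp [Polynomial.aeval_def]
  have hvβ := val_root_eq v hinv h0 h1 hgen π hπ a ha0 han _ hp₀ β hroot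
  exact not_perturbation_root v hinv h0 h1 hgen π hπ G₁ t htame hwild a ha hat _ hp₀ β hvβ hroot

end Wrapper

end Fermat.Agent.GP.Ram.EisPerturb
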