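/-
GATE-P (S56 long shot) / [P-FLAT] (iv), sub-piece `hres` of DVRINST (helper87):
**a finite group acting trivially on a finite residue field has `f = 1`.**

`O` a local ring with finite residue field `κ`, `G` a finite group of ring automorphisms of `O` with
`σ x ≡ x` modulo the maximal ideal for all `σ`, `x` ("`G` is an inertia group").  Then `O^G → κ` is
surjective: every `x ∈ O` is congruent to a `G`-fixed element (`exists_fixed_sub_mem`).

Proof: `∏_σ (X - σ x) ∈ O^G[X]` reduces to `(X - x̄)^|G|`, a polynomial over the image field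
`κ₀ = im (O^G → κ)`; the minimal polynomial of `x̄` over `κ₀` divides it and is separable (finite fields
are perfect), hence equals `X - x̄`, i.e. `x̄ ∈ κ₀`.
Mathlib only.
-/
import Mathlib

set_option autoImplicit false

namespace Fermat.Agent.GP.Ram.FixedLift

open Polynomial IsLocalRing

variable {O : Type*} [CommRing O] [IsLocalRing O] [Finite (ResidueField O)]
  {G : Type*} [Group G] [MulSemiringAction G O]

variable (O G) in
/-- the image of `O^G` in the residue field, as a subfield -/
noncomputable def imageSubfield : Subfield (ResidueField O) :=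
  { (FixedPoints.subring O G).map (residue O) with
    inv_mem' := by
      intro y hy
      have : Fintype (ResidueField O) := Fintype.ofFinite _
      by_cases h0 : y = 0
      · rw [h0, inv_zero]
        exact Subring.zero_mem _
      · have h1 := FiniteField.pow_card_sub_one_eq_one y h0
        have hq : 2 ≤ Fintype.card (ResidueField O) := Fintype.one_lt_card
        have h2 : y * y ^ (Fintype.card (ResidueField O) - 2) = 1 := by
          rw [← pow_succ', ← h1]
          congr 1
          omega
        rw [inv_eq_of_mul_eq_one_right h2]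
        exact Subring.pow_mem _ hy _ }

theorem mem_imageSubfield {y : ResidueField O} :
    y ∈ imageSubfield O G ↔ ∃ a : O, (∀ σ : G, σ • a = a) ∧ residue O a = y := by
  constructor
  · rintro ⟨a, ha, rfl⟩
    exact ⟨a, ha, rfl⟩
  · rintro ⟨a, ha, rfl⟩
    exact ⟨a, ha, rfl⟩

/-- **`O^G → κ` is surjective when `G` acts trivially on the finite residue field `κ`.** -/
theorem exists_fixed_sub_mem [Finite G]
    (htriv : ∀ (σ : G) (x : O), σ • x - x ∈ maximalIdeal O) (x : O) :
    ∃ y : O, (∀ σ : G, σ • y = y) ∧ x - y ∈ maximalIdeal O := by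
  classical
  cases nonempty_fintype G
  set κ := ResidueField O
  set κ₀ := imageSubfield O G with hκ₀
  set xb : κ := residue O x with hxb
  have hres : ∀ σ : G, residue O (σ • x) = xb := by
    intro σ
    have := htriv σ x
    rw [← Ideal.Quotient.eq] at this
    exact this
  -- the reduction of the characteristic polynomial
  set F := MulSemiringAction.charpoly G x with hF
  have hFbar : F.map (residue O) = (X - C xb) ^ Fintype.card G := by
    rw [hF, MulSemiringAction.charpoly_eq, Polynomial.map_prod]
    simp only [Polynomial.map_sub, Polynomial.map_X, Polynomial.map_C, hres]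
    rw [Finset.prod_const, Finset.card_univ]
  have hmonic : (F.map (residue O)).Monic := (MulSemiringAction.monic_charpoly G x).map _
  -- its coefficients lie in `κ₀`
  have hlift : F.map (residue O) ∈ Polynomial.lifts (algebraMap κ₀ κ) := by
    rw [Polynomial.lifts_iff_coeff_lifts]
    intro n
    rw [coeff_map]
    refine ⟨⟨residue O (F.coeff n), mem_imageSubfield.mpr ⟨F.coeff n, fun σ => ?_, rfl⟩⟩, rfl⟩
    exact MulSemiringAction.smul_coeff_charpoly x n σ
  obtain ⟨F₀, hF₀map, -, hF₀monic⟩ := Polynomial.lifts_and_natDegree_eq_and_monic hlift hmonic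
  have hcard : 0 < Fintype.card G := Fintype.card_pos
  have hroot : aeval xb F₀ = 0 := by
    rw [aeval_def, eval₂_eq_eval_map, hF₀map, hFbar, eval_pow, eval_sub, eval_X, eval_C, sub_self,
      zero_pow hcard.ne']
  have hint : IsIntegral κ₀ xb := ⟨F₀, hF₀monic, hroot⟩
  -- the minimal polynomial is separable and divides `(X - xb)^|G|`
  have hdvd : (minpoly κ₀ xb).map (algebraMap κ₀ κ) ∣ (X - C xb) ^ Fintype.card G := by
    rw [← hFbar, ← hF₀map]
    exact Polynomial.map_dvd _ (minpoly.dvd κ₀ xb hroot)
  have hsep : ((minpoly κ₀ xb).map (algebraMap κ₀ κ)).Separable :=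
    (PerfectField.separable_of_irreducible (minpoly.irreducible hint)).map
  have hdvd1 : (minpoly κ₀ xb).map (algebraMap κ₀ κ) ∣ X - C xb :=
    (hsep.squarefree.dvd_pow_iff_dvd hcard.ne').mp hdvd
  have hdeg : (minpoly κ₀ xb).natDegree = 1 := by
    have h1 : ((minpoly κ₀ xb).map (algebraMap κ₀ κ)).natDegree ≤ 1 := by
      have := natDegree_le_of_dvd hdvd1 (X_sub_C_ne_zero xb)
      rwa [natDegree_X_sub_C] at this
    rw [natDegree_map] at h1
    have h2 := minpoly.natDegree_pos hint
    omega
  obtain ⟨⟨y₀, hy₀⟩, hy₀'⟩ := (minpoly.natDegree_eq_one_iff).mp hdeg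
  obtain ⟨y, hy, hy'⟩ := mem_imageSubfield.mp hy₀
  refine ⟨y, hy, ?_⟩
  rw [← Ideal.Quotient.eq]
  show residue O x = residue O y
  rw [hy']
  exact hy₀'.symm

/-- the same in the shape of the `hres` binder of `Converse.exists_perturbation_no_root`:
`O₀` any subring containing the `G`-fixed elements -/
theorem exists_mem_sub_mem [Finite G]
    (htriv : ∀ (σ : G) (x : O), σ • x - x ∈ maximalIdeal O) (O₀ : Subring O)
    (hO₀ : ∀ y : O, (∀ σ : G, σ • y = y) → y ∈ O₀) (x : O) :
    ∃ y ∈ O₀, x - y ∈ maximalIdeal O := by
  obtain ⟨y, hy, hxy⟩ := exists_fixed_sub_mem htriv x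
  exact ⟨y, hO₀ y hy, hxy⟩

end Fermat.Agent.GP.Ram.FixedLift
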