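/-
GATE-P (S56 long shot) / [P-FLAT] (iv) adapter (helper42): the INERTIA SUBGROUP of a finite Galois
extension `E / ℚ_q` in the GC/Local model (`O = padicVS q E`).

* `inertia q E : Subgroup (E ≃ₐ[ℚ_[q]] E)` — kernel of the action on the residue field;
* `exists_fixed_lift` — every residue class has an inertia-FIXED representative (Teichmüller lift
  by Hensel's lemma + uniqueness);
* `card_inertia` — `#I = ramIdx q E`;
* `natCast_eq_unit_mul_pow` — `q = unit * π ^ #I` for every uniformiser `π`.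

These are the hypotheses `hres`, `hϖ₀e` of the abstract perturbation lemmas
(GP/Flat/Converse, GP/Ram/EisPerturb, GP/Flat/EisPerturb) for `G := inertia`.
-/
import Mathlib
import Fermat.Agent.GC.Local.Unram.InertiaRamIdx

set_option autoImplicit false
set_option linter.unusedSectionVars false

open scoped Padic
open IsLocalRing Polynomial

noncomputable section

namespace Fermat.Agent.GP.Ram.InertiaField

open Fermat.Agent.GC.Local Fermat.Agent.GC.Local.InertiaRam

variable (q : ℕ) [Fact q.Prime] (E : Type) [Field E] [Algebra ℚ_[q] E]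
  [FiniteDimensional ℚ_[q] E]

local notation "𝒪" => padicVS q E
local notation "κ" => ResidueField (padicVS q E)

theorem resAlgHom_one : resAlgHom q E (1 : E ≃ₐ[ℚ_[q]] E) = AlgHom.id _ _ := by
  apply AlgHom.ext
  intro x
  obtain ⟨y, rfl⟩ := residue_surjective x
  rw [resAlgHom_residue]
  rfl

theorem resAlgHom_mul (σ τ : E ≃ₐ[ℚ_[q]] E) :
    resAlgHom q E (σ * τ) = (resAlgHom q E σ).comp (resAlgHom q E τ) := by
  apply AlgHom.ext
  intro x
  obtain ⟨y, rfl⟩ := residue_surjective x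
  rw [AlgHom.comp_apply, resAlgHom_residue, resAlgHom_residue, resAlgHom_residue]
  rfl

/-- The action on the residue field as a monoid homomorphism. -/
def resHom : (E ≃ₐ[ℚ_[q]] E) →* (κ →ₐ[ZMod q] κ) where
  toFun := resAlgHom q E
  map_one' := resAlgHom_one q E
  map_mul' := resAlgHom_mul q E

/-- The inertia subgroup. -/
def inertia : Subgroup (E ≃ₐ[ℚ_[q]] E) := (resHom q E).ker

theorem mem_inertia_iff (σ : E ≃ₐ[ℚ_[q]] E) :
    σ ∈ inertia q E ↔ ∀ x : E, x ∈ 𝒪 → σ x - x ∈ (𝒪).nonunits := by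
  rw [inertia, MonoidHom.mem_ker]
  constructor
  · intro h x hx
    have h1 : resAlgHom q E σ (residue 𝒪 ⟨x, hx⟩) = residue 𝒪 ⟨x, hx⟩ := by
      have : resAlgHom q E σ = 1 := h
      rw [this]; rfl
    rw [resAlgHom_residue, ← sub_eq_zero, ← map_sub, residue_eq_zero_iff,
      ← ValuationSubring.coe_mem_nonunits_iff] at h1
    exact h1
  · intro h
    change resAlgHom q E σ = 1
    apply AlgHom.ext
    intro x
    obtain ⟨y, rfl⟩ := residue_surjective x
    rw [resAlgHom_residue]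
    change _ = residue 𝒪 y
    rw [← sub_eq_zero, ← map_sub, residue_eq_zero_iff, ← ValuationSubring.coe_mem_nonunits_iff]
    exact h y y.2

theorem mem_inertia_iff' (σ : E ≃ₐ[ℚ_[q]] E) :
    σ ∈ inertia q E ↔ ∀ x : 𝒪, restrictO q E σ x - x ∈ maximalIdeal 𝒪 := by
  rw [mem_inertia_iff]
  constructor
  · intro h x
    rw [← ValuationSubring.coe_mem_nonunits_iff]
    exact h x x.2
  · intro h x hx
    have := h ⟨x, hx⟩
    rw [← ValuationSubring.coe_mem_nonunits_iff] at this
    exact this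

section Teich

/-- Teichmüller representatives exist (Hensel's lemma for `X ^ Q - X`). -/
theorem exists_teich (x : 𝒪) :
    ∃ y : 𝒪, y ^ Fintype.card κ = y ∧ y - x ∈ maximalIdeal 𝒪 := by
  have := padicVS_isAdicComplete q E
  have hH : HenselianRing 𝒪 (maximalIdeal 𝒪) := inferInstance
  set Q := Fintype.card κ with hQ
  have hQ2 : 1 < Q := Fintype.one_lt_card
  have hmonic : (X ^ Q - X : (𝒪)[X]).Monic := by
    apply (monic_X_pow Q).sub_of_left
    rw [degree_X_pow, degree_X]
    exact_mod_cast hQ2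
  have hQ0 : ((Q : ℕ) : κ) = 0 := by
    rw [hQ]; exact FiniteField.cast_card_eq_zero κ
  have hev : (X ^ Q - X : (𝒪)[X]).eval x ∈ maximalIdeal 𝒪 := by
    rw [eval_sub, eval_pow, eval_X, ← residue_eq_zero_iff, map_sub, map_pow, sub_eq_zero]
    exact FiniteField.pow_card _
  have hder : IsUnit (Ideal.Quotient.mk (maximalIdeal 𝒪)
      ((X ^ Q - X : (𝒪)[X]).derivative.eval x)) := by
    have h1 : (X ^ Q - X : (𝒪)[X]).derivative.eval x = (Q : 𝒪) * x ^ (Q - 1) - 1 := by
      simp [derivative_X_pow]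
    rw [h1]
    have h2 : residue 𝒪 ((Q : 𝒪) * x ^ (Q - 1) - 1) = -1 := by
      rw [map_sub, map_mul, map_one, map_natCast, hQ0, zero_mul, zero_sub]
    change IsUnit (residue 𝒪 ((Q : 𝒪) * x ^ (Q - 1) - 1))
    rw [h2]
    exact isUnit_one.neg
  obtain ⟨y, hy, hyx⟩ := hH.is_henselian _ hmonic x hev hder
  refine ⟨y, ?_, hyx⟩
  have : (X ^ Q - X : (𝒪)[X]).eval y = 0 := hy
  rw [eval_sub, eval_pow, eval_X, sub_eq_zero] at this
  exact this

/-- Teichmüller representatives are unique in their residue class. -/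
theorem teich_unique {y y' : 𝒪} (hy : y ^ Fintype.card κ = y) (hy' : y' ^ Fintype.card κ = y')
    (h : y - y' ∈ maximalIdeal 𝒪) : y = y' := by
  have := padicVS_isDiscreteValuationRing q E
  set Q := Fintype.card κ with hQ
  have hQ0 : ((Q : ℕ) : κ) = 0 := by
    rw [hQ]; exact FiniteField.cast_card_eq_zero κ
  set S : 𝒪 := ∑ i ∈ Finset.range Q, y ^ i * y' ^ (Q - 1 - i) with hS
  have hgeo : S * (y - y') = y - y' := by
    rw [hS, geom_sum₂_mul, hy, hy']
  have hres : residue 𝒪 y = residue 𝒪 y' := by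
    rw [← sub_eq_zero, ← map_sub, residue_eq_zero_iff]; exact h
  have hSm : S ∈ maximalIdeal 𝒪 := by
    rw [← residue_eq_zero_iff, hS, map_sum]
    have : ∀ i ∈ Finset.range Q, residue 𝒪 (y ^ i * y' ^ (Q - 1 - i)) = residue 𝒪 y ^ (Q - 1) := by
      intro i hi
      rw [Finset.mem_range] at hi
      rw [map_mul, map_pow, map_pow, ← hres, ← pow_add]
      congr 1
      omega
    rw [Finset.sum_congr rfl this, Finset.sum_const, Finset.card_range, nsmul_eq_mul, hQ0, zero_mul]
  have hunit : IsUnit (1 - S) := by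
    by_contra hn
    have h1 : (1 - S) ∈ maximalIdeal 𝒪 := (IsLocalRing.mem_maximalIdeal _).mpr hn
    have h2 : (1 : 𝒪) ∈ maximalIdeal 𝒪 := by
      have := Ideal.add_mem _ h1 hSm
      rwa [sub_add_cancel] at this
    exact (Ideal.ne_top_iff_one _).mp (IsLocalRing.maximalIdeal.isMaximal _).ne_top h2
  have hzero : (1 - S) * (y - y') = 0 := by
    rw [sub_mul, one_mul, hgeo, sub_self]
  rcases mul_eq_zero.mp hzero with h0 | h0
  · exact absurd h0 hunit.ne_zero
  · exact sub_eq_zero.mp h0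

/-- **(T1)** Every residue class contains an inertia-fixed element. -/
theorem exists_fixed_lift (x : 𝒪) :
    ∃ y : 𝒪, (∀ σ ∈ inertia q E, restrictO q E σ y = y) ∧ x - y ∈ maximalIdeal 𝒪 := by
  obtain ⟨y, hy, hyx⟩ := exists_teich q E x
  refine ⟨y, fun σ hσ => ?_, ?_⟩
  · apply teich_unique q E _ hy
    · exact (mem_inertia_iff' q E σ).mp hσ y
    · rw [← map_pow, hy]
  · have := Ideal.neg_mem_iff _ |>.mpr hyx
    rwa [neg_sub] at this

end Teich

section Surj

variable [IsGalois ℚ_[q] E]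

/-- A Galois-fixed integer reduces into the prime field. -/
theorem residue_of_fixed (c : 𝒪) (hc : ∀ σ : E ≃ₐ[ℚ_[q]] E, σ (c : E) = c) :
    ∃ n : ℕ, residue 𝒪 c = (n : κ) := by
  obtain ⟨a, ha⟩ := (IsGalois.mem_range_algebraMap_iff_fixed (F := ℚ_[q]) (c : E)).mpr hc
  have hnorm : ‖a‖ ≤ 1 := by
    have h1 : spectralNorm ℚ_[q] E (c : E) ≤ 1 := (mem_padicVS_iff q E).mp c.2
    rwa [← ha, spectralNorm_extends] at h1
  set a' : ℤ_[q] := ⟨a, hnorm⟩ with ha'
  obtain ⟨n, -, hn⟩ := PadicInt.exists_mem_range (p := q) (x := a')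
  rw [PadicInt.maximalIdeal_eq_span_p, Ideal.mem_span_singleton] at hn
  obtain ⟨b, hb⟩ := hn
  refine ⟨n, ?_⟩
  have hc' : c = algebraMap ℤ_[q] 𝒪 a' := by
    apply Subtype.ext
    rw [padicVS_algebraMap_coe, ← ha]
  have ha2 : a' = n + (q : ℤ_[q]) * b := by rw [← hb]; ring
  rw [hc', ha2, map_add, map_mul, map_natCast, map_add, map_mul, map_natCast]
  have hq : residue 𝒪 (algebraMap ℤ_[q] 𝒪 (q : ℤ_[q])) = 0 := by
    rw [residue_eq_zero_iff]
    exact primeElt_mem_maximalIdeal q E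
  rw [hq, zero_mul, add_zero]

/-- The polynomial `∏_σ (X - σ θ)` over the valuation ring. -/
def conjPoly (θ : 𝒪) : (𝒪)[X] := ∏ σ : E ≃ₐ[ℚ_[q]] E, (X - C (restrictO q E σ θ))

theorem restrictO_mul (ρ σ : E ≃ₐ[ℚ_[q]] E) (x : 𝒪) :
    restrictO q E (ρ * σ) x = restrictO q E ρ (restrictO q E σ x) := by
  apply Subtype.ext; rfl

theorem conjPoly_map (θ : 𝒪) (ρ : E ≃ₐ[ℚ_[q]] E) :
    (conjPoly q E θ).map (restrictO q E ρ) = conjPoly q E θ := by
  rw [conjPoly, Polynomial.map_prod]
  refine Fintype.prod_equiv (Equiv.mulLeft ρ) _ _ (fun σ => ?_)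
  rw [Polynomial.map_sub, map_X, map_C, Equiv.coe_mulLeft, restrictO_mul]

theorem conjPoly_coeff_fixed (θ : 𝒪) (k : ℕ) (ρ : E ≃ₐ[ℚ_[q]] E) :
    ρ (((conjPoly q E θ).coeff k : 𝒪) : E) = ((conjPoly q E θ).coeff k : 𝒪) := by
  have h := congrArg (fun p : (𝒪)[X] => ((p.coeff k : 𝒪) : E)) (conjPoly_map q E θ ρ)
  simp only [coeff_map, coe_restrictO] at h
  exact h

theorem conjPoly_map_residue_map (θ : 𝒪) (τ : κ →+* κ) :
    ((conjPoly q E θ).map (residue 𝒪)).map τ = (conjPoly q E θ).map (residue 𝒪) := by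
  ext k
  rw [coeff_map, coeff_map]
  obtain ⟨n, hn⟩ := residue_of_fixed q E ((conjPoly q E θ).coeff k)
    (conjPoly_coeff_fixed q E θ k)
  rw [hn, map_natCast]

/-- Every ring endomorphism of the residue field maps `θ̄` to some `σ̄ θ̄`. -/
theorem exists_resAlgHom_apply_eq (θ : 𝒪) (τ : κ →+* κ) :
    ∃ σ : E ≃ₐ[ℚ_[q]] E, τ (residue 𝒪 θ) = resAlgHom q E σ (residue 𝒪 θ) := by
  set P := (conjPoly q E θ).map (residue 𝒪) with hP
  have hPprod : P = ∏ σ : E ≃ₐ[ℚ_[q]] E, (X - C (residue 𝒪 (restrictO q E σ θ))) := by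
    rw [hP, conjPoly, Polynomial.map_prod]
    refine Finset.prod_congr rfl (fun σ _ => ?_)
    rw [Polynomial.map_sub, map_X, map_C]
  have hroot : P.eval (residue 𝒪 θ) = 0 := by
    rw [hPprod, eval_prod]
    apply Finset.prod_eq_zero (Finset.mem_univ (1 : E ≃ₐ[ℚ_[q]] E))
    rw [eval_sub, eval_X, eval_C, sub_eq_zero]
    congr 1
  have hroot' : P.eval (τ (residue 𝒪 θ)) = 0 := by
    have h1 : (P.map τ).eval (τ (residue 𝒪 θ)) = τ (P.eval (residue 𝒪 θ)) := by
      rw [eval_map, eval₂_hom]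
    rw [conjPoly_map_residue_map q E θ τ] at h1
    rw [h1, hroot, map_zero]
  rw [hPprod, eval_prod, Finset.prod_eq_zero_iff] at hroot'
  obtain ⟨σ, -, hσ⟩ := hroot'
  refine ⟨σ, ?_⟩
  rw [eval_sub, eval_X, eval_C, sub_eq_zero] at hσ
  rw [hσ, resAlgHom_residue]

/-- Two ring homomorphisms out of the finite residue field agreeing on a generator of `κˣ`
agree. -/
theorem ringHom_ext_of_generator {g : κˣ} (hg : ∀ x : κˣ, x ∈ Subgroup.zpowers g)
    (f f' : κ →+* κ) (h : f (g : κ) = f' (g : κ)) : f = f' := by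
  ext x
  rcases eq_or_ne x 0 with rfl | hx
  · rw [map_zero, map_zero]
  · obtain ⟨k, hk⟩ := Subgroup.mem_zpowers_iff.mp (hg (Units.mk0 x hx))
    have hx' : x = (g : κ) ^ k := by
      have := congrArg (fun u : κˣ => (u : κ)) hk
      simp only [Units.val_zpow_eq_zpow_val, Units.val_mk0] at this
      exact this.symm
    rw [hx', map_zpow₀, map_zpow₀, h]

/-- **Surjectivity** of `Gal(E/ℚ_q) → Aut(κ/𝔽_q)`. -/
theorem resAlgHom_surjective (τ : κ →ₐ[ZMod q] κ) :
    ∃ σ : E ≃ₐ[ℚ_[q]] E, resAlgHom q E σ = τ := by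
  obtain ⟨g, hg⟩ := IsCyclic.exists_generator (α := κˣ)
  obtain ⟨θ, hθ⟩ := residue_surjective (g : κ)
  obtain ⟨σ, hσ⟩ := exists_resAlgHom_apply_eq q E θ (τ : κ →+* κ)
  refine ⟨σ, ?_⟩
  have h := ringHom_ext_of_generator q E hg (resAlgHom q E σ : κ →+* κ) (τ : κ →+* κ) (by
    rw [← hθ]; exact hσ.symm)
  apply AlgHom.ext
  intro x
  exact congrArg (fun f : κ →+* κ => f x) h

end Surj

section Card

variable [IsGalois ℚ_[q] E]

/-- The automorphism of the residue field induced by `σ`. -/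
def resEquiv (σ : E ≃ₐ[ℚ_[q]] E) : κ ≃ₐ[ZMod q] κ :=
  AlgEquiv.ofAlgHom (resAlgHom q E σ) (resAlgHom q E σ⁻¹)
    (by rw [← resAlgHom_mul, mul_inv_cancel, resAlgHom_one])
    (by rw [← resAlgHom_mul, inv_mul_cancel, resAlgHom_one])

theorem resEquiv_apply (σ : E ≃ₐ[ℚ_[q]] E) (x : κ) : resEquiv q E σ x = resAlgHom q E σ x := rfl

/-- `Gal(E/ℚ_q) → Gal(κ/𝔽_q)` as a group homomorphism. -/
def resEquivHom : (E ≃ₐ[ℚ_[q]] E) →* (κ ≃ₐ[ZMod q] κ) where
  toFun := resEquiv q E
  map_one' := by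
    apply AlgEquiv.ext
    intro x
    rw [resEquiv_apply, resAlgHom_one]; rfl
  map_mul' σ τ := by
    apply AlgEquiv.ext
    intro x
    rw [resEquiv_apply, resAlgHom_mul]; rfl

theorem resEquivHom_ker : (resEquivHom q E).ker = inertia q E := by
  ext σ
  rw [MonoidHom.mem_ker, inertia, MonoidHom.mem_ker]
  constructor
  · intro h
    apply AlgHom.ext
    intro x
    have := congrArg (fun f : κ ≃ₐ[ZMod q] κ => f x) h
    exact this
  · intro h
    apply AlgEquiv.ext
    intro x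
    have := congrArg (fun f : κ →ₐ[ZMod q] κ => f x) h
    exact this

theorem resEquivHom_surjective : Function.Surjective (resEquivHom q E) := by
  intro τ
  obtain ⟨σ, hσ⟩ := resAlgHom_surjective q E (τ : κ →ₐ[ZMod q] κ)
  refine ⟨σ, ?_⟩
  apply AlgEquiv.ext
  intro x
  have := congrArg (fun f : κ →ₐ[ZMod q] κ => f x) hσ
  exact this

theorem finrank_residueField : Module.finrank (ZMod q) κ = resDeg q E := by
  have ha := Module.natCard_eq_pow_finrank (K := ZMod q) (V := κ)
  rw [Nat.card_zmod, card_residueField_eq q E] at ha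
  exact (Nat.pow_right_injective (Fact.out : q.Prime).two_le ha).symm

/-- **(T2)** The inertia group has order the ramification index. -/
theorem card_inertia : Nat.card (inertia q E) = ramIdx q E := by
  have hfin : Module.Finite (ZMod q) κ := Module.Finite.of_finite
  have h1 : Nat.card (inertia q E) * (inertia q E).index = Nat.card (E ≃ₐ[ℚ_[q]] E) :=
    Subgroup.card_mul_index _
  have h2 : (inertia q E).index = Nat.card (κ ≃ₐ[ZMod q] κ) := by
    rw [← resEquivHom_ker, Subgroup.index_ker,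
      MonoidHom.range_eq_top.mpr (resEquivHom_surjective q E), Subgroup.card_top]
  have h3 : Nat.card (κ ≃ₐ[ZMod q] κ) = resDeg q E := by
    rw [IsGalois.card_aut_eq_finrank, finrank_residueField]
  have h4 : Nat.card (E ≃ₐ[ℚ_[q]] E) = Module.finrank ℚ_[q] E :=
    IsGalois.card_aut_eq_finrank ℚ_[q] E
  have h5 := ramIdx_mul_resDeg q E
  rw [h2, h3, h4, ← h5] at h1
  have hpos : 0 < resDeg q E := by
    rcases Nat.eq_zero_or_pos (resDeg q E) with h0 | h0
    · rw [h0, mul_zero] at h5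
      exact absurd h5.symm (Module.finrank_pos).ne'
    · exact h0
  exact Nat.eq_of_mul_eq_mul_right hpos h1

/-- **(T3)** `q = unit * π ^ #I` for every uniformiser `π`. -/
theorem natCast_eq_unit_mul_pow {π : 𝒪} (hπ : Irreducible π) :
    ∃ u : (𝒪)ˣ, ((q : ℕ) : 𝒪) = u * π ^ Nat.card (inertia q E) := by
  have := padicVS_isDiscreteValuationRing q E
  have hq : ((q : ℕ) : 𝒪) = primeElt q E := by rw [primeElt, map_natCast]
  rw [card_inertia, hq]
  have h1 := span_primeElt_eq q E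
  rw [hπ.maximalIdeal_eq, Ideal.span_singleton_pow, Ideal.span_singleton_eq_span_singleton] at h1
  obtain ⟨u, hu⟩ := h1.symm
  exact ⟨u, by rw [← hu, mul_comm]⟩

end Card

section Action

/-- The Galois group acts on the valuation ring. -/
@[reducible] def galAction : MulSemiringAction (E ≃ₐ[ℚ_[q]] E) 𝒪 where
  smul σ x := restrictO q E σ x
  one_smul _ := Subtype.ext rfl
  mul_smul _ _ _ := Subtype.ext rfl
  smul_zero σ := map_zero (restrictO q E σ)
  smul_add σ x y := map_add (restrictO q E σ) x y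
  smul_one σ := map_one (restrictO q E σ)
  smul_mul σ x y := map_mul (restrictO q E σ) x y

/-- The inertia group acts on the valuation ring. -/
@[reducible] def inertiaAction : MulSemiringAction (inertia q E) 𝒪 where
  smul σ x := restrictO q E (σ : E ≃ₐ[ℚ_[q]] E) x
  one_smul _ := Subtype.ext rfl
  mul_smul _ _ _ := Subtype.ext rfl
  smul_zero σ := map_zero (restrictO q E σ)
  smul_add σ x y := map_add (restrictO q E σ) x y
  smul_one σ := map_one (restrictO q E σ)
  smul_mul σ x y := map_mul (restrictO q E σ) x y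

theorem inertiaAction_smul_coe (σ : inertia q E) (x : 𝒪) :
    (((inertiaAction q E).smul σ x : 𝒪) : E) = (σ : E ≃ₐ[ℚ_[q]] E) (x : E) := rfl

/-- The subring of inertia-fixed integers. -/
def fixedSubring : Subring 𝒪 where
  carrier := {x | ∀ σ ∈ inertia q E, restrictO q E σ x = x}
  mul_mem' {a b} ha hb σ hσ := by rw [map_mul, ha σ hσ, hb σ hσ]
  one_mem' σ _ := map_one _
  add_mem' {a b} ha hb σ hσ := by rw [map_add, ha σ hσ, hb σ hσ]
  zero_mem' σ _ := map_zero _
  neg_mem' {a} ha σ hσ := by rw [map_neg, ha σ hσ]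

theorem mem_fixedSubring_iff (x : 𝒪) :
    x ∈ fixedSubring q E ↔ ∀ σ ∈ inertia q E, restrictO q E σ x = x := Iff.rfl

theorem natCast_mem_fixedSubring (n : ℕ) : ((n : ℕ) : 𝒪) ∈ fixedSubring q E :=
  natCast_mem _ n

/-- `hres` of the perturbation lemmas: same residue field. -/
theorem exists_mem_fixedSubring_sub_mem (x : 𝒪) :
    ∃ y ∈ fixedSubring q E, x - y ∈ maximalIdeal 𝒪 := by
  obtain ⟨y, hy, hxy⟩ := exists_fixed_lift q E x
  exact ⟨y, hy, hxy⟩

/-- Galois automorphisms are isometries for the spectral norm. -/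
theorem spectralNorm_map (σ : E ≃ₐ[ℚ_[q]] E) (x : E) :
    spectralNorm ℚ_[q] E (σ x) = spectralNorm ℚ_[q] E x :=
  (spectralNorm_eq_of_equiv σ x).symm

end Action

end Fermat.Agent.GP.Ram.InertiaField
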