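/-
GATE-P / S56 [P-FLAT] (R1) (helper75): TAME elements of inertia have `i(τ) = 1`,
in abstract valuation form (Mathlib only; companion of `GP/Ram/KummerBreak.lean`).

* `val_root_sub_one_eq_one` : a primitive `m`-th root of unity `ζ` with `v m = 1` (i.e. `m` prime to
  the residue characteristic) has `v (ζ ^ k - 1) = 1` for `m ∤ k`.
* `tame_break` : `τ : L →+* L` a `v`-isometry acting trivially on the residue field
  (`v x ≤ 1 → v (τ x - x) < 1`), `πK = w * Π ^ n` with `v w = 1`, `τ πK = ζ * πK` with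
  `v (ζ - 1) = 1`  ⟹  `v (τ Π - Π) = v Π`   (so `i(τ) = 1` in lower numbering).
-/
import Mathlib

set_option autoImplicit false

namespace Fermat.Agent.GP.Ram.TameBreak

open Finset

variable {L : Type*} [Field L] {Γ₀ : Type*} [LinearOrderedCommGroupWithZero Γ₀]
  (v : Valuation L Γ₀)

theorem eq_one_of_pow_eq_one' {g : Γ₀} {n : ℕ} (hn : n ≠ 0) (h : g ^ n = 1) : g = 1 := by
  rcases lt_trichotomy g 1 with hlt | heq | hgt
  · exact absurd h (ne_of_lt (pow_lt_one₀ zero_le hlt hn))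
  · exact heq
  · exact absurd h (ne_of_gt (one_lt_pow₀ hgt hn))

theorem val_pow_sub_one_le' {x : L} (hx : v x ≤ 1) (n : ℕ) : v (x ^ n - 1) ≤ v (x - 1) := by
  rw [← geom_sum_mul, map_mul]
  calc v (∑ i ∈ range n, x ^ i) * v (x - 1) ≤ 1 * v (x - 1) :=
        mul_le_mul' (by
          refine v.map_sum_le fun i _ => ?_
          rw [v.map_pow]
          exact pow_le_one₀ zero_le hx) le_rfl
    _ = v (x - 1) := one_mul _

/-- Roots of unity of order prime to the residue characteristic are distinct mod `𝔪`. -/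
theorem val_root_sub_one_eq_one {m : ℕ} {ζ : L} (hζ : IsPrimitiveRoot ζ m) (hm : v (m : L) = 1)
    {k : ℕ} (hk : ¬ m ∣ k) : v (ζ ^ k - 1) = 1 := by
  have hm0 : m ≠ 0 := by
    rintro rfl
    simp at hm
  have hvζ : v ζ = 1 :=
    eq_one_of_pow_eq_one' hm0 (by rw [← v.map_pow, hζ.pow_eq_one, v.map_one])
  have hle : ∀ j : ℕ, v (1 - ζ ^ j) ≤ 1 := fun j =>
    (v.map_sub _ _).trans (max_le (le_of_eq v.map_one)
      (le_of_eq (by rw [v.map_pow, hvζ, one_pow])))
  -- reduce to `k % m`, which is in `1 .. m-1`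
  have hkm : ζ ^ k = ζ ^ (k % m) := by
    conv_lhs => rw [← Nat.mod_add_div k m, pow_add, pow_mul, hζ.pow_eq_one, one_pow, mul_one]
  have hr0 : k % m ≠ 0 := fun h => hk (Nat.dvd_of_mod_eq_zero h)
  have hrlt : k % m < m := Nat.mod_lt _ (Nat.pos_of_ne_zero hm0)
  obtain ⟨m', rfl⟩ : ∃ m', m = m' + 1 := ⟨m - 1, (Nat.sub_add_cancel (Nat.pos_of_ne_zero hm0)).symm⟩
  have hprod := hζ.prod_one_sub_pow_eq_order
  have hcast : ((m' : ℕ) : L) + 1 = ((m' + 1 : ℕ) : L) := by push_cast; ring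
  rw [hcast] at hprod
  have hvprod : ∏ j ∈ range m', v (1 - ζ ^ (j + 1)) = 1 := by
    rw [← map_prod, hprod, hm]
  -- the factor `j = k % m - 1`
  have hjmem : k % (m' + 1) - 1 ∈ range m' := by
    rw [Finset.mem_range]; omega
  have hsplit := Finset.mul_prod_erase (range m') (fun j => v (1 - ζ ^ (j + 1))) hjmem
  rw [hvprod] at hsplit
  have hrest : ∏ j ∈ (range m').erase (k % (m' + 1) - 1), v (1 - ζ ^ (j + 1)) ≤ 1 :=
    Finset.prod_le_one' fun j _ => hle (j + 1)
  have hfac : v (1 - ζ ^ (k % (m' + 1) - 1 + 1)) = 1 := by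
    refine le_antisymm (hle _) ?_
    by_contra hlt
    rw [not_le] at hlt
    have : v (1 - ζ ^ (k % (m' + 1) - 1 + 1)) *
        ∏ j ∈ (range m').erase (k % (m' + 1) - 1), v (1 - ζ ^ (j + 1)) < 1 := by
      calc _ ≤ v (1 - ζ ^ (k % (m' + 1) - 1 + 1)) * 1 := mul_le_mul' le_rfl hrest
        _ = v (1 - ζ ^ (k % (m' + 1) - 1 + 1)) := mul_one _
        _ < 1 := hlt
    rw [hsplit] at this
    exact lt_irrefl _ this
  have hidx : k % (m' + 1) - 1 + 1 = k % (m' + 1) := Nat.sub_add_cancel (Nat.pos_of_ne_zero hr0)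
  rw [hidx] at hfac
  rw [hkm, ← Valuation.map_neg, neg_sub]
  exact hfac

/-- **Tame break** (R1): `i(τ) = 1` for `τ` moving a tame uniformiser by a root of unity `≢ 1`. -/
theorem tame_break (τ : L →+* L) (hiso : ∀ x, v (τ x) = v x)
    (hinert : ∀ x, v x ≤ 1 → v (τ x - x) < 1) {Pi πK w ζ : L} {n : ℕ}
    (hπK : πK = w * Pi ^ n) (hw : v w = 1) (hPi : Pi ≠ 0) (hτ : τ πK = ζ * πK)
    (hζ : v (ζ - 1) = 1) : v (τ Pi - Pi) = v Pi := by
  have hw0 : w ≠ 0 := by
    intro h; rw [h, v.map_zero] at hw; exact zero_ne_one hw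
  have hvPi : v Pi ≠ 0 := (v.ne_zero_iff).mpr hPi
  set r : L := τ Pi / Pi with hr
  have hvr : v r = 1 := by rw [hr, map_div₀, hiso, div_self hvPi]
  -- `ζ = (τ w / w) * r ^ n`
  have hπK0 : πK ≠ 0 := by rw [hπK]; exact mul_ne_zero hw0 (pow_ne_zero _ hPi)
  have hζeq : ζ = (τ w / w) * r ^ n := by
    have h1 : τ πK = τ w * (τ Pi) ^ n := by rw [hπK, map_mul, map_pow]
    have h2 : ζ = τ πK / πK := by rw [hτ]; field_simp
    rw [h2, h1, hπK, hr, div_pow]
    field_simp
  have hq : v (τ w / w - 1) < 1 := by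
    have : τ w / w - 1 = (τ w - w) / w := by field_simp
    rw [this, map_div₀, hw, div_one]
    exact hinert w (le_of_eq hw)
  have hvq : v (τ w / w) = 1 := by rw [map_div₀, hiso, hw, div_one]
  -- if `v (r - 1) < 1` then `v (ζ - 1) < 1`
  have hr1 : v (r - 1) = 1 := by
    have hle : v (r - 1) ≤ 1 :=
      (v.map_sub _ _).trans (max_le (le_of_eq hvr) (le_of_eq v.map_one))
    refine le_antisymm hle ?_
    by_contra hlt
    rw [not_le] at hlt
    have hrn : v (r ^ n - 1) < 1 :=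
      lt_of_le_of_lt (val_pow_sub_one_le' v (le_of_eq hvr) n) hlt
    have hdecomp : ζ - 1 = (τ w / w) * (r ^ n - 1) + (τ w / w - 1) := by rw [hζeq]; ring
    have : v (ζ - 1) < 1 := by
      rw [hdecomp]
      refine v.map_add_lt ?_ hq
      rw [map_mul, hvq, one_mul]; exact hrn
    rw [hζ] at this
    exact lt_irrefl _ this
  have : τ Pi - Pi = Pi * (r - 1) := by rw [hr]; field_simp
  rw [this, map_mul, hr1, mul_one]

end Fermat.Agent.GP.Ram.TameBreak
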